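/-
S25 LIB (helper7630): short exact sequences of glued modules and the six-term exact
sequence `0 → H⁰N' → H⁰N → H⁰N'' → H¹N' → H¹N → H¹N'' → 0`.
-/
import Fermat.Agent.S25.A1.Basic

set_option autoImplicit false

universe u

namespace Fermat.Agent.S25

namespace GluedModule

variable {R : Type u} [CommRing R] {𝔹 : TwoChart R}

namespace Hom

variable {N N' : GluedModule 𝔹}

/-- The `R`-linear map on the `Č⁰`-terms `N₁ × N₂` induced by a morphism. -/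
def c0 (φ : Hom N N') : (N.N₁ × N.N₂) →ₗ[R] (N'.N₁ × N'.N₂) :=
  LinearMap.prodMap (φ.φ₁.restrictScalars R) (φ.φ₂.restrictScalars R)

/-- The `R`-linear map on the `Č¹`-terms `N₁₂` induced by a morphism. -/
def c1 (φ : Hom N N') : N.N₁₂ →ₗ[R] N'.N₁₂ := φ.φ₁₂.restrictScalars R

@[simp] theorem c0_apply (φ : Hom N N') (x : N.N₁ × N.N₂) : φ.c0 x = (φ.φ₁ x.1, φ.φ₂ x.2) := rfl

@[simp] theorem c1_apply (φ : Hom N N') (x : N.N₁₂) : φ.c1 x = φ.φ₁₂ x := rfl

theorem c1_comp_d (φ : Hom N N') : φ.c1 ∘ₗ N.d = N'.d ∘ₗ φ.c0 :=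
  LinearMap.ext fun x => φ.d_comm x

end Hom

/-- A short exact sequence `0 → N' → N → N'' → 0` of glued modules: exact on both charts
(exactness on the overlap follows, see `ShortExact.exact₁₂` etc.). -/
structure ShortExact {N' N N'' : GluedModule 𝔹} (i : Hom N' N) (p : Hom N N'') : Prop where
  inj₁ : Function.Injective i.φ₁
  exact₁ : Function.Exact i.φ₁ p.φ₁
  surj₁ : Function.Surjective p.φ₁
  inj₂ : Function.Injective i.φ₂
  exact₂ : Function.Exact i.φ₂ p.φ₂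
  surj₂ : Function.Surjective p.φ₂

namespace ShortExact

variable {N' N N'' : GluedModule 𝔹} {i : Hom N' N} {p : Hom N N''}

theorem ι₁_eq_zero_of_pow_smul (M : GluedModule 𝔹) (x : M.N₁) (k : ℕ)
    (h : 𝔹.f ^ k • x = 0) : M.ι₁ x = 0 := by
  have h1 : (𝔹.r₁ 𝔹.f) ^ k • M.ι₁ x = 0 := by
    rw [← map_pow, ← M.ι₁_smul, h, map_zero]
  have h2 := congrArg (fun z => (𝔹.r₂ 𝔹.g) ^ k • z) h1
  simpa only [← mul_smul, ← mul_pow, 𝔹.gf, one_pow, one_smul, smul_zero] using h2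

theorem eq_zero_of_pow_smul (M : GluedModule 𝔹) (y : M.N₁₂) (k : ℕ)
    (h : (𝔹.r₂ 𝔹.g) ^ k • y = 0) : y = 0 := by
  have h2 := congrArg (fun z => (𝔹.r₁ 𝔹.f) ^ k • z) h
  simpa only [← mul_smul, ← mul_pow, 𝔹.fg, one_pow, one_smul, smul_zero] using h2

theorem surj₁₂ (h : ShortExact i p) : Function.Surjective p.φ₁₂ := by
  intro y
  obtain ⟨n, m, rfl⟩ := N''.surj₁ y
  obtain ⟨x, rfl⟩ := h.surj₁ n
  exact ⟨(𝔹.r₂ 𝔹.g) ^ m • N.ι₁ x, by rw [map_smul, p.comm₁]⟩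

theorem inj₁₂ (h : ShortExact i p) : Function.Injective i.φ₁₂ := by
  rw [injective_iff_map_eq_zero]
  intro y hy
  obtain ⟨n, m, rfl⟩ := N'.surj₁ y
  rw [map_smul, i.comm₁] at hy
  have h1 : N.ι₁ (i.φ₁ n) = 0 := by
    have h2 := congrArg (fun z => (𝔹.r₁ 𝔹.f) ^ m • z) hy
    simpa only [← mul_smul, ← mul_pow, 𝔹.fg, one_pow, one_smul, smul_zero] using h2
  obtain ⟨k, hk⟩ := N.ker₁ _ h1
  rw [← map_smul] at hk
  have h3 : 𝔹.f ^ k • n = 0 := h.inj₁ (by rw [hk, map_zero])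
  rw [ι₁_eq_zero_of_pow_smul N' n k h3, smul_zero]

theorem exact₁₂ (h : ShortExact i p) : Function.Exact i.φ₁₂ p.φ₁₂ := by
  intro y
  constructor
  · intro hy
    obtain ⟨n, m, rfl⟩ := N.surj₁ y
    rw [map_smul, p.comm₁] at hy
    have h1 : N''.ι₁ (p.φ₁ n) = 0 := by
      have h2 := congrArg (fun z => (𝔹.r₁ 𝔹.f) ^ m • z) hy
      simpa only [← mul_smul, ← mul_pow, 𝔹.fg, one_pow, one_smul, smul_zero] using h2
    obtain ⟨k, hk⟩ := N''.ker₁ _ h1
    rw [← map_smul] at hk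
    obtain ⟨n', hn'⟩ := (h.exact₁ _).mp hk
    refine ⟨(𝔹.r₂ 𝔹.g) ^ (m + k) • N'.ι₁ n', ?_⟩
    rw [map_smul, i.comm₁, hn', N.ι₁_smul, map_pow, pow_add, mul_smul, ← mul_smul (𝔹.r₂ 𝔹.g ^ k),
      ← mul_pow, 𝔹.gf, one_pow, one_smul]
  · rintro ⟨y', rfl⟩
    obtain ⟨n, m, rfl⟩ := N'.surj₁ y'
    rw [map_smul, map_smul, i.comm₁, p.comm₁, (h.exact₁ _).mpr ⟨n, rfl⟩, map_zero, smul_zero]

theorem c0_exact (h : ShortExact i p) : Function.Exact i.c0 p.c0 := by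
  rintro ⟨x, y⟩
  constructor
  · intro hxy
    have hx : p.φ₁ x = 0 := congrArg Prod.fst hxy
    have hy : p.φ₂ y = 0 := congrArg Prod.snd hxy
    obtain ⟨x', rfl⟩ := (h.exact₁ x).mp hx
    obtain ⟨y', rfl⟩ := (h.exact₂ y).mp hy
    exact ⟨(x', y'), rfl⟩
  · rintro ⟨⟨x', y'⟩, hxy⟩
    have hx : i.φ₁ x' = x := congrArg Prod.fst hxy
    have hy : i.φ₂ y' = y := congrArg Prod.snd hxy
    subst hx hy
    change (p.φ₁ (i.φ₁ x'), p.φ₂ (i.φ₂ y')) = 0
    rw [(h.exact₁ _).mpr ⟨x', rfl⟩, (h.exact₂ _).mpr ⟨y', rfl⟩]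
    rfl

theorem c0_injective (h : ShortExact i p) : Function.Injective i.c0 := by
  rintro ⟨x, y⟩ ⟨x', y'⟩ hxy
  have hx : i.φ₁ x = i.φ₁ x' := congrArg Prod.fst hxy
  have hy : i.φ₂ y = i.φ₂ y' := congrArg Prod.snd hxy
  rw [h.inj₁ hx, h.inj₂ hy]

theorem c0_surjective (h : ShortExact i p) : Function.Surjective p.c0 := by
  rintro ⟨x, y⟩
  obtain ⟨x', rfl⟩ := h.surj₁ x
  obtain ⟨y', rfl⟩ := h.surj₂ y
  exact ⟨(x', y'), rfl⟩

theorem c1_exact (h : ShortExact i p) : Function.Exact i.c1 p.c1 := h.exact₁₂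

/-- `H⁰` is left exact: injectivity. -/
theorem H0_injective (h : ShortExact i p) : Function.Injective i.H0 := by
  intro x y hxy
  apply Subtype.ext
  apply h.c0_injective
  exact congrArg Subtype.val hxy

/-- `H⁰` is left exact: exactness in the middle. -/
theorem H0_exact (h : ShortExact i p) : Function.Exact i.H0 p.H0 := by
  intro x
  constructor
  · intro hx
    have hx' : p.c0 (x : N.N₁ × N.N₂) = 0 := congrArg Subtype.val hx
    obtain ⟨y, hy⟩ := (h.c0_exact _).mp hx'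
    have hy0 : y ∈ N'.H0 := by
      change N'.d y = 0
      apply h.inj₁₂
      rw [map_zero]
      have := LinearMap.congr_fun i.c1_comp_d y
      simp only [LinearMap.comp_apply, Hom.c1_apply] at this
      rw [this, hy]
      exact x.2
    exact ⟨⟨y, hy0⟩, Subtype.ext hy⟩
  · rintro ⟨y, rfl⟩
    apply Subtype.ext
    exact (h.c0_exact _).mpr ⟨y, rfl⟩

/-- `H¹` is right exact: surjectivity. -/
theorem H1_surjective (h : ShortExact i p) : Function.Surjective p.H1 := by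
  intro y
  obtain ⟨y, rfl⟩ := Submodule.Quotient.mk_surjective _ y
  obtain ⟨x, rfl⟩ := h.surj₁₂ y
  exact ⟨Submodule.Quotient.mk x, rfl⟩

/-- `H¹` is right exact: exactness in the middle. -/
theorem H1_exact (h : ShortExact i p) : Function.Exact i.H1 p.H1 := by
  intro y
  obtain ⟨y, rfl⟩ := Submodule.Quotient.mk_surjective _ y
  constructor
  · intro hy
    rw [Hom.H1_mk, Submodule.Quotient.mk_eq_zero] at hy
    obtain ⟨z, hz⟩ := hy
    obtain ⟨w, rfl⟩ := h.c0_surjective z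
    have hcomm := LinearMap.congr_fun p.c1_comp_d w
    simp only [LinearMap.comp_apply, Hom.c1_apply] at hcomm
    have h0 : p.φ₁₂ (y - N.d w) = 0 := by rw [map_sub, hcomm, hz, sub_self]
    obtain ⟨y', hy'⟩ := (h.exact₁₂ _).mp h0
    refine ⟨Submodule.Quotient.mk y', ?_⟩
    rw [Hom.H1_mk, hy', Submodule.Quotient.mk_sub, sub_eq_self, Submodule.Quotient.mk_eq_zero]
    exact ⟨w, rfl⟩
  · rintro ⟨y', hy'⟩
    obtain ⟨y', rfl⟩ := Submodule.Quotient.mk_surjective _ y'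
    rw [Hom.H1_mk] at hy'
    rw [← hy', Hom.H1_mk, (h.exact₁₂ _).mpr ⟨y', rfl⟩, Submodule.Quotient.mk_zero]

/-- The connecting homomorphism `H⁰(N'') → H¹(N')`. -/
noncomputable def δ (h : ShortExact i p) : N''.H0 →ₗ[R] N'.H1 :=
  SnakeLemma.δ' N'.d N.d N''.d i.c0 p.c0 h.c0_exact i.c1 p.c1 h.c1_exact
    i.c1_comp_d p.c1_comp_d N''.H0.subtype (LinearMap.exact_subtype_ker_map N''.d)
    (LinearMap.range N'.d).mkQ (LinearMap.exact_map_mkQ_range N'.d) h.c0_surjective h.inj₁₂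

/-- Computing `δ`: if `y ∈ N₁ × N₂` lifts the section `x` of `N''` and `z ∈ N'₁₂` maps to
`d y`, then `δ x = [z]`. -/
theorem δ_eq (h : ShortExact i p) (x : N''.H0) (y : N.N₁ × N.N₂)
    (hy : p.c0 y = (x : N''.N₁ × N''.N₂)) (z : N'.N₁₂) (hz : i.φ₁₂ z = N.d y) :
    h.δ x = Submodule.Quotient.mk z :=
  SnakeLemma.δ'_eq N'.d N.d N''.d i.c0 p.c0 h.c0_exact i.c1 p.c1 h.c1_exact
    i.c1_comp_d p.c1_comp_d N''.H0.subtype (LinearMap.exact_subtype_ker_map N''.d)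
    (LinearMap.range N'.d).mkQ (LinearMap.exact_map_mkQ_range N'.d) h.c0_surjective h.inj₁₂
    x y hy z hz

/-- Exactness at `H⁰(N'')`. -/
theorem exact_H0_δ (h : ShortExact i p) : Function.Exact p.H0 h.δ :=
  SnakeLemma.exact_δ'_right N'.d N.d N''.d i.c0 p.c0 h.c0_exact i.c1 p.c1 h.c1_exact
    i.c1_comp_d p.c1_comp_d N.H0.subtype (LinearMap.exact_subtype_ker_map N.d)
    N''.H0.subtype (LinearMap.exact_subtype_ker_map N''.d)
    (LinearMap.range N'.d).mkQ (LinearMap.exact_map_mkQ_range N'.d) h.c0_surjective h.inj₁₂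
    p.H0 (LinearMap.ext fun _ => rfl) (Submodule.injective_subtype _)

/-- Exactness at `H¹(N')`. -/
theorem exact_δ_H1 (h : ShortExact i p) : Function.Exact h.δ i.H1 :=
  SnakeLemma.exact_δ'_left N'.d N.d N''.d i.c0 p.c0 h.c0_exact i.c1 p.c1 h.c1_exact
    i.c1_comp_d p.c1_comp_d N''.H0.subtype (LinearMap.exact_subtype_ker_map N''.d)
    (LinearMap.range N'.d).mkQ (LinearMap.exact_map_mkQ_range N'.d)
    (LinearMap.range N.d).mkQ (LinearMap.exact_map_mkQ_range N.d) h.c0_surjective h.inj₁₂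
    i.H1 (LinearMap.ext fun _ => rfl) (Submodule.mkQ_surjective _)

end ShortExact

end GluedModule

end Fermat.Agent.S25
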