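/-
S25 LIB (helper7630): base change of glued modules along a morphism of two-charts.
-/
import Fermat.Agent.S25.Defs

set_option autoImplicit false
set_option linter.style.haveILetI false

universe u

namespace Fermat.Agent.S25

open scoped TensorProduct

/-! ### Single-chart base change: abstract form -/

namespace SingleChart

section

variable {B C B' C' : Type*} [CommRing B] [CommRing C] [CommRing B'] [CommRing C']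
  [Algebra B C] [Algebra B B'] [Algebra C C'] [Algebra B' C'] [Algebra B C']
  [IsScalarTower B C C'] [IsScalarTower B B' C']
  {M P : Type*} [AddCommGroup M] [Module B M] [AddCommGroup P] [Module B P] [Module C P]
  [IsScalarTower B C P]

/-- `m ↦ 1 ⊗ ι m`. -/
noncomputable def tmapAux (C C' : Type*) [CommRing C] [CommRing C'] [Algebra B C] [Algebra C C']
    [Algebra B C'] [IsScalarTower B C C'] [Module C P] [IsScalarTower B C P]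
    (ι : M →ₗ[B] P) : M →ₗ[B] C' ⊗[C] P :=
  ((TensorProduct.mk C C' P 1).restrictScalars B).comp ι

/-- The semilinear tensor map `B' ⊗[B] M → C' ⊗[C] P`, `b' ⊗ m ↦ b' ⊗ ι m`. -/
noncomputable def tmap (C B' C' : Type*) [CommRing C] [CommRing B'] [CommRing C'] [Algebra B C]
    [Algebra B B'] [Algebra C C'] [Algebra B' C'] [Algebra B C'] [IsScalarTower B C C']
    [IsScalarTower B B' C'] [Module C P] [IsScalarTower B C P]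
    (ι : M →ₗ[B] P) : B' ⊗[B] M →ₗ[B'] C' ⊗[C] P :=
  (tmapAux C C' ι).liftBaseChange B'

theorem tmap_tmul (ι : M →ₗ[B] P) (b : B') (m : M) :
    tmap C B' C' ι (b ⊗ₜ m) = (algebraMap B' C' b) ⊗ₜ ι m := by
  change b • ((1 : C') ⊗ₜ[C] ι m) = _
  rw [TensorProduct.smul_tmul', Algebra.smul_def, mul_one]

theorem tmap_isBaseChange (ι : M →ₗ[B] P) (hι : IsBaseChange C ι) :
    IsBaseChange C' (tmap C B' C' ι) := by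
  have hα : IsBaseChange B' (TensorProduct.mk B B' M 1) := TensorProduct.isBaseChange B M B'
  have hβ : IsBaseChange C' (TensorProduct.mk C C' P 1) := TensorProduct.isBaseChange C P C'
  have hcomp := IsBaseChange.comp hι hβ
  refine IsBaseChange.of_comp hα ?_
  convert hcomp using 1
  ext m
  simp [tmap, tmapAux]

theorem tmap_core (f : B) (finv : C) (hf : algebraMap B C f * finv = 1)
    [IsLocalization (Submonoid.powers f) C]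
    [IsLocalization (Submonoid.powers (algebraMap B B' f)) C']
    (ι : M →ₗ[B] P) [IsLocalizedModule (Submonoid.powers f) ι] :
    (∀ y : C' ⊗[C] P, ∃ (t : B' ⊗[B] M) (m : ℕ),
      y = (algebraMap C C' finv) ^ m • tmap C B' C' ι t) ∧
    (∀ t : B' ⊗[B] M, tmap C B' C' ι t = 0 → ∃ m : ℕ, (algebraMap B B' f) ^ m • t = 0) := by
  have hι : IsBaseChange C ι := IsLocalizedModule.isBaseChange (Submonoid.powers f) C ι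
  have h1 : IsBaseChange C' (tmap C B' C' ι) := tmap_isBaseChange ι hι
  haveI : IsLocalizedModule (Submonoid.powers (algebraMap B B' f)) (tmap C B' C' ι) :=
    (isLocalizedModule_iff_isBaseChange _ C' _).mpr h1
  have hf' : algebraMap B' C' (algebraMap B B' f) * algebraMap C C' finv = 1 := by
    rw [← IsScalarTower.algebraMap_apply B B' C', IsScalarTower.algebraMap_apply B C C',
      ← map_mul, hf, map_one]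
  exact ⟨exists_eq_pow_smul_of_isLocalizedModule _ _ _ hf',
    exists_pow_smul_eq_zero_of_isLocalizedModule _ _⟩

end

end SingleChart

namespace TwoChart.Hom

variable {R R' : Type u} [CommRing R] [CommRing R'] {φ : R →+* R'}
  {𝔹 : TwoChart R} {𝔹' : TwoChart R'} (h : TwoChart.Hom φ 𝔹 𝔹')

/-- First chart of the base change: the restriction map
`B'₁ ⊗[B₁] N₁ → B'₁₂ ⊗[B₁₂] N₁₂`, `b ⊗ n ↦ r₁ b ⊗ ι₁ n`. -/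
noncomputable def bcι₁ (N : GluedModule 𝔹) :
    letI := h.ψ₁.toAlgebra; letI := h.ψ₁₂.toAlgebra
    (𝔹'.B₁ ⊗[𝔹.B₁] N.N₁) →+ (𝔹'.B₁₂ ⊗[𝔹.B₁₂] N.N₁₂) :=
  letI := h.ψ₁.toAlgebra; letI := h.ψ₁₂.toAlgebra; letI := 𝔹.algebra₁; letI := 𝔹'.algebra₁
  letI : Algebra 𝔹.B₁ 𝔹'.B₁₂ := (𝔹'.r₁.toRingHom.comp h.ψ₁).toAlgebra
  letI := N.module₁
  haveI := N.isScalarTower₁
  haveI : IsScalarTower 𝔹.B₁ 𝔹.B₁₂ 𝔹'.B₁₂ :=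
    IsScalarTower.of_algebraMap_eq (fun b => (h.comm₁ b).symm)
  haveI : IsScalarTower 𝔹.B₁ 𝔹'.B₁ 𝔹'.B₁₂ := IsScalarTower.of_algebraMap_eq (fun _ => rfl)
  (SingleChart.tmap 𝔹.B₁₂ 𝔹'.B₁ 𝔹'.B₁₂ N.ι₁ₗ).toAddMonoidHom

theorem bcι₁_tmul (N : GluedModule 𝔹) (b : 𝔹'.B₁) (n : N.N₁) :
    letI := h.ψ₁.toAlgebra; letI := h.ψ₁₂.toAlgebra
    h.bcι₁ N (b ⊗ₜ n) = (𝔹'.r₁ b) ⊗ₜ N.ι₁ n := by
  letI := h.ψ₁.toAlgebra; letI := h.ψ₁₂.toAlgebra; letI := 𝔹.algebra₁; letI := 𝔹'.algebra₁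
  letI : Algebra 𝔹.B₁ 𝔹'.B₁₂ := (𝔹'.r₁.toRingHom.comp h.ψ₁).toAlgebra
  letI := N.module₁
  haveI := N.isScalarTower₁
  haveI : IsScalarTower 𝔹.B₁ 𝔹.B₁₂ 𝔹'.B₁₂ :=
    IsScalarTower.of_algebraMap_eq (fun b => (h.comm₁ b).symm)
  haveI : IsScalarTower 𝔹.B₁ 𝔹'.B₁ 𝔹'.B₁₂ := IsScalarTower.of_algebraMap_eq (fun _ => rfl)
  exact SingleChart.tmap_tmul (C := 𝔹.B₁₂) N.ι₁ₗ b n

theorem bcι₁_smul (N : GluedModule 𝔹) (b : 𝔹'.B₁) :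
    letI := h.ψ₁.toAlgebra; letI := h.ψ₁₂.toAlgebra
    ∀ t : 𝔹'.B₁ ⊗[𝔹.B₁] N.N₁, h.bcι₁ N (b • t) = 𝔹'.r₁ b • h.bcι₁ N t := by
  letI := h.ψ₁.toAlgebra; letI := h.ψ₁₂.toAlgebra; letI := 𝔹.algebra₁; letI := 𝔹'.algebra₁
  letI : Algebra 𝔹.B₁ 𝔹'.B₁₂ := (𝔹'.r₁.toRingHom.comp h.ψ₁).toAlgebra
  letI := N.module₁
  haveI := N.isScalarTower₁
  haveI : IsScalarTower 𝔹.B₁ 𝔹.B₁₂ 𝔹'.B₁₂ :=
    IsScalarTower.of_algebraMap_eq (fun b => (h.comm₁ b).symm)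
  haveI : IsScalarTower 𝔹.B₁ 𝔹'.B₁ 𝔹'.B₁₂ := IsScalarTower.of_algebraMap_eq (fun _ => rfl)
  intro t
  change SingleChart.tmap 𝔹.B₁₂ 𝔹'.B₁ 𝔹'.B₁₂ N.ι₁ₗ (b • t) = _
  rw [map_smul]
  exact (algebraMap_smul 𝔹'.B₁₂ b _).symm

theorem bcι₁_core (N : GluedModule 𝔹) :
    letI := h.ψ₁.toAlgebra; letI := h.ψ₁₂.toAlgebra
    (∀ y : 𝔹'.B₁₂ ⊗[𝔹.B₁₂] N.N₁₂, ∃ (t : 𝔹'.B₁ ⊗[𝔹.B₁] N.N₁) (m : ℕ),
      y = (𝔹'.r₂ 𝔹'.g) ^ m • h.bcι₁ N t) ∧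
    (∀ t : 𝔹'.B₁ ⊗[𝔹.B₁] N.N₁, h.bcι₁ N t = 0 → ∃ m : ℕ, 𝔹'.f ^ m • t = 0) := by
  letI := h.ψ₁.toAlgebra; letI := h.ψ₁₂.toAlgebra; letI := 𝔹.algebra₁; letI := 𝔹'.algebra₁
  letI : Algebra 𝔹.B₁ 𝔹'.B₁₂ := (𝔹'.r₁.toRingHom.comp h.ψ₁).toAlgebra
  letI := N.module₁
  haveI := N.isScalarTower₁
  haveI : IsScalarTower 𝔹.B₁ 𝔹.B₁₂ 𝔹'.B₁₂ :=
    IsScalarTower.of_algebraMap_eq (fun b => (h.comm₁ b).symm)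
  haveI : IsScalarTower 𝔹.B₁ 𝔹'.B₁ 𝔹'.B₁₂ := IsScalarTower.of_algebraMap_eq (fun _ => rfl)
  haveI := 𝔹.isLocalization₁
  haveI : IsLocalization (Submonoid.powers (algebraMap 𝔹.B₁ 𝔹'.B₁ 𝔹.f)) 𝔹'.B₁₂ := by
    have : algebraMap 𝔹.B₁ 𝔹'.B₁ 𝔹.f = 𝔹'.f := h.map_f
    rw [this]
    exact 𝔹'.isLocalization₁
  haveI := N.isLocalizedModule₁
  have key := SingleChart.tmap_core (B' := 𝔹'.B₁) (C' := 𝔹'.B₁₂) 𝔹.f (𝔹.r₂ 𝔹.g) 𝔹.fg N.ι₁ₗ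
  have e1 : algebraMap 𝔹.B₁₂ 𝔹'.B₁₂ (𝔹.r₂ 𝔹.g) = 𝔹'.r₂ 𝔹'.g := by
    change h.ψ₁₂ (𝔹.r₂ 𝔹.g) = _
    rw [h.comm₂, h.map_g]
  have e2 : algebraMap 𝔹.B₁ 𝔹'.B₁ 𝔹.f = 𝔹'.f := h.map_f
  rw [e1, e2] at key
  exact key

/-- Second chart of the base change: the restriction map
`B'₂ ⊗[B₂] N₂ → B'₁₂ ⊗[B₁₂] N₁₂`, `b ⊗ n ↦ r₂ b ⊗ ι₂ n`. -/
noncomputable def bcι₂ (N : GluedModule 𝔹) :
    letI := h.ψ₂.toAlgebra; letI := h.ψ₁₂.toAlgebra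
    (𝔹'.B₂ ⊗[𝔹.B₂] N.N₂) →+ (𝔹'.B₁₂ ⊗[𝔹.B₁₂] N.N₁₂) :=
  letI := h.ψ₂.toAlgebra; letI := h.ψ₁₂.toAlgebra; letI := 𝔹.algebra₂; letI := 𝔹'.algebra₂
  letI : Algebra 𝔹.B₂ 𝔹'.B₁₂ := (𝔹'.r₂.toRingHom.comp h.ψ₂).toAlgebra
  letI := N.module₂
  haveI := N.isScalarTower₂
  haveI : IsScalarTower 𝔹.B₂ 𝔹.B₁₂ 𝔹'.B₁₂ :=
    IsScalarTower.of_algebraMap_eq (fun b => (h.comm₂ b).symm)
  haveI : IsScalarTower 𝔹.B₂ 𝔹'.B₂ 𝔹'.B₁₂ := IsScalarTower.of_algebraMap_eq (fun _ => rfl)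
  (SingleChart.tmap 𝔹.B₁₂ 𝔹'.B₂ 𝔹'.B₁₂ N.ι₂ₗ).toAddMonoidHom

theorem bcι₂_tmul (N : GluedModule 𝔹) (b : 𝔹'.B₂) (n : N.N₂) :
    letI := h.ψ₂.toAlgebra; letI := h.ψ₁₂.toAlgebra
    h.bcι₂ N (b ⊗ₜ n) = (𝔹'.r₂ b) ⊗ₜ N.ι₂ n := by
  letI := h.ψ₂.toAlgebra; letI := h.ψ₁₂.toAlgebra; letI := 𝔹.algebra₂; letI := 𝔹'.algebra₂
  letI : Algebra 𝔹.B₂ 𝔹'.B₁₂ := (𝔹'.r₂.toRingHom.comp h.ψ₂).toAlgebra
  letI := N.module₂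
  haveI := N.isScalarTower₂
  haveI : IsScalarTower 𝔹.B₂ 𝔹.B₁₂ 𝔹'.B₁₂ :=
    IsScalarTower.of_algebraMap_eq (fun b => (h.comm₂ b).symm)
  haveI : IsScalarTower 𝔹.B₂ 𝔹'.B₂ 𝔹'.B₁₂ := IsScalarTower.of_algebraMap_eq (fun _ => rfl)
  exact SingleChart.tmap_tmul (C := 𝔹.B₁₂) N.ι₂ₗ b n

theorem bcι₂_smul (N : GluedModule 𝔹) (b : 𝔹'.B₂) :
    letI := h.ψ₂.toAlgebra; letI := h.ψ₁₂.toAlgebra
    ∀ t : 𝔹'.B₂ ⊗[𝔹.B₂] N.N₂, h.bcι₂ N (b • t) = 𝔹'.r₂ b • h.bcι₂ N t := by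
  letI := h.ψ₂.toAlgebra; letI := h.ψ₁₂.toAlgebra; letI := 𝔹.algebra₂; letI := 𝔹'.algebra₂
  letI : Algebra 𝔹.B₂ 𝔹'.B₁₂ := (𝔹'.r₂.toRingHom.comp h.ψ₂).toAlgebra
  letI := N.module₂
  haveI := N.isScalarTower₂
  haveI : IsScalarTower 𝔹.B₂ 𝔹.B₁₂ 𝔹'.B₁₂ :=
    IsScalarTower.of_algebraMap_eq (fun b => (h.comm₂ b).symm)
  haveI : IsScalarTower 𝔹.B₂ 𝔹'.B₂ 𝔹'.B₁₂ := IsScalarTower.of_algebraMap_eq (fun _ => rfl)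
  intro t
  change SingleChart.tmap 𝔹.B₁₂ 𝔹'.B₂ 𝔹'.B₁₂ N.ι₂ₗ (b • t) = _
  rw [map_smul]
  exact (algebraMap_smul 𝔹'.B₁₂ b _).symm

theorem bcι₂_core (N : GluedModule 𝔹) :
    letI := h.ψ₂.toAlgebra; letI := h.ψ₁₂.toAlgebra
    (∀ y : 𝔹'.B₁₂ ⊗[𝔹.B₁₂] N.N₁₂, ∃ (t : 𝔹'.B₂ ⊗[𝔹.B₂] N.N₂) (m : ℕ),
      y = (𝔹'.r₁ 𝔹'.f) ^ m • h.bcι₂ N t) ∧
    (∀ t : 𝔹'.B₂ ⊗[𝔹.B₂] N.N₂, h.bcι₂ N t = 0 → ∃ m : ℕ, 𝔹'.g ^ m • t = 0) := by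
  letI := h.ψ₂.toAlgebra; letI := h.ψ₁₂.toAlgebra; letI := 𝔹.algebra₂; letI := 𝔹'.algebra₂
  letI : Algebra 𝔹.B₂ 𝔹'.B₁₂ := (𝔹'.r₂.toRingHom.comp h.ψ₂).toAlgebra
  letI := N.module₂
  haveI := N.isScalarTower₂
  haveI : IsScalarTower 𝔹.B₂ 𝔹.B₁₂ 𝔹'.B₁₂ :=
    IsScalarTower.of_algebraMap_eq (fun b => (h.comm₂ b).symm)
  haveI : IsScalarTower 𝔹.B₂ 𝔹'.B₂ 𝔹'.B₁₂ := IsScalarTower.of_algebraMap_eq (fun _ => rfl)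
  haveI := 𝔹.isLocalization₂
  haveI : IsLocalization (Submonoid.powers (algebraMap 𝔹.B₂ 𝔹'.B₂ 𝔹.g)) 𝔹'.B₁₂ := by
    have : algebraMap 𝔹.B₂ 𝔹'.B₂ 𝔹.g = 𝔹'.g := h.map_g
    rw [this]
    exact 𝔹'.isLocalization₂
  haveI := N.isLocalizedModule₂
  have key := SingleChart.tmap_core (B' := 𝔹'.B₂) (C' := 𝔹'.B₁₂) 𝔹.g (𝔹.r₁ 𝔹.f) 𝔹.gf N.ι₂ₗ
  have e1 : algebraMap 𝔹.B₁₂ 𝔹'.B₁₂ (𝔹.r₁ 𝔹.f) = 𝔹'.r₁ 𝔹'.f := by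
    change h.ψ₁₂ (𝔹.r₁ 𝔹.f) = _
    rw [h.comm₁, h.map_f]
  have e2 : algebraMap 𝔹.B₂ 𝔹'.B₂ 𝔹.g = 𝔹'.g := h.map_g
  rw [e1, e2] at key
  exact key

end TwoChart.Hom

namespace GluedModule

variable {R R' : Type u} [CommRing R] [CommRing R'] {φ : R →+* R'}
  {𝔹 : TwoChart R} {𝔹' : TwoChart R'}

/-- Base change of a glued module along a morphism of two-charts: chartwise
`B'_i ⊗[B_i] N_i`. -/
noncomputable def baseChange (h : TwoChart.Hom φ 𝔹 𝔹') (N : GluedModule 𝔹) : GluedModule 𝔹' :=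
  letI := h.ψ₁.toAlgebra; letI := h.ψ₂.toAlgebra; letI := h.ψ₁₂.toAlgebra
  { N₁ := 𝔹'.B₁ ⊗[𝔹.B₁] N.N₁
    N₂ := 𝔹'.B₂ ⊗[𝔹.B₂] N.N₂
    N₁₂ := 𝔹'.B₁₂ ⊗[𝔹.B₁₂] N.N₁₂
    ι₁ :=
      { toFun := h.bcι₁ N
        map_add' := map_add _
        map_smul' := fun r t => by
          rw [← algebraMap_smul 𝔹'.B₁ r t, h.bcι₁_smul, 𝔹'.r₁.commutes, algebraMap_smul]
          rfl }
    ι₂ :=
      { toFun := h.bcι₂ N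
        map_add' := map_add _
        map_smul' := fun r t => by
          rw [← algebraMap_smul 𝔹'.B₂ r t, h.bcι₂_smul, 𝔹'.r₂.commutes, algebraMap_smul]
          rfl }
    ι₁_smul := h.bcι₁_smul N
    ι₂_smul := h.bcι₂_smul N
    surj₁ := (h.bcι₁_core N).1
    ker₁ := (h.bcι₁_core N).2
    surj₂ := (h.bcι₂_core N).1
    ker₂ := (h.bcι₂_core N).2 }

end GluedModule

end Fermat.Agent.S25
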