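/-
S25 LIB (helper7630): API for `GluedModule.baseChange`:
pure tensors, induction, universal property, functoriality, unit, twist, line bundles.
-/
import Fermat.Agent.S25.Lib.BaseChange

set_option autoImplicit false
set_option linter.style.haveILetI false

universe u

namespace Fermat.Agent.S25

open scoped TensorProduct

namespace GluedModule

variable {R R' : Type u} [CommRing R] [CommRing R'] {φ : R →+* R'}
  {𝔹 : TwoChart R} {𝔹' : TwoChart R'} (h : TwoChart.Hom φ 𝔹 𝔹')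

/-! ### Pure tensors -/

/-- The pure tensor `b ⊗ n` in the first chart of the base change. -/
noncomputable def bcMk₁ (N : GluedModule 𝔹) (b : 𝔹'.B₁) (n : N.N₁) : (N.baseChange h).N₁ :=
  letI := h.ψ₁.toAlgebra
  b ⊗ₜ[𝔹.B₁] n

/-- The pure tensor `b ⊗ n` in the second chart of the base change. -/
noncomputable def bcMk₂ (N : GluedModule 𝔹) (b : 𝔹'.B₂) (n : N.N₂) : (N.baseChange h).N₂ :=
  letI := h.ψ₂.toAlgebra
  b ⊗ₜ[𝔹.B₂] n

/-- The pure tensor `b ⊗ n` on the overlap of the base change. -/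
noncomputable def bcMk₁₂ (N : GluedModule 𝔹) (b : 𝔹'.B₁₂) (n : N.N₁₂) : (N.baseChange h).N₁₂ :=
  letI := h.ψ₁₂.toAlgebra
  b ⊗ₜ[𝔹.B₁₂] n

variable {h}
variable {N : GluedModule 𝔹}

theorem smul_bcMk₁ (c b : 𝔹'.B₁) (n : N.N₁) : c • bcMk₁ h N b n = bcMk₁ h N (c * b) n := rfl

theorem smul_bcMk₂ (c b : 𝔹'.B₂) (n : N.N₂) : c • bcMk₂ h N b n = bcMk₂ h N (c * b) n := rfl

theorem smul_bcMk₁₂ (c b : 𝔹'.B₁₂) (n : N.N₁₂) :
    c • bcMk₁₂ h N b n = bcMk₁₂ h N (c * b) n := rfl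

theorem bcMk₁_add_left (b c : 𝔹'.B₁) (n : N.N₁) :
    bcMk₁ h N (b + c) n = bcMk₁ h N b n + bcMk₁ h N c n := by
  letI := h.ψ₁.toAlgebra
  exact TensorProduct.add_tmul b c n

theorem bcMk₁_add_right (b : 𝔹'.B₁) (n n' : N.N₁) :
    bcMk₁ h N b (n + n') = bcMk₁ h N b n + bcMk₁ h N b n' := by
  letI := h.ψ₁.toAlgebra
  exact TensorProduct.tmul_add b n n'

theorem bcMk₁_smul_right (b : 𝔹'.B₁) (a : 𝔹.B₁) (n : N.N₁) :
    bcMk₁ h N b (a • n) = bcMk₁ h N (h.ψ₁ a * b) n := by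
  letI := h.ψ₁.toAlgebra
  exact (TensorProduct.smul_tmul a b n).symm

theorem bcMk₂_add_left (b c : 𝔹'.B₂) (n : N.N₂) :
    bcMk₂ h N (b + c) n = bcMk₂ h N b n + bcMk₂ h N c n := by
  letI := h.ψ₂.toAlgebra
  exact TensorProduct.add_tmul b c n

theorem bcMk₂_add_right (b : 𝔹'.B₂) (n n' : N.N₂) :
    bcMk₂ h N b (n + n') = bcMk₂ h N b n + bcMk₂ h N b n' := by
  letI := h.ψ₂.toAlgebra
  exact TensorProduct.tmul_add b n n'

theorem bcMk₂_smul_right (b : 𝔹'.B₂) (a : 𝔹.B₂) (n : N.N₂) :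
    bcMk₂ h N b (a • n) = bcMk₂ h N (h.ψ₂ a * b) n := by
  letI := h.ψ₂.toAlgebra
  exact (TensorProduct.smul_tmul a b n).symm

theorem bcMk₁₂_add_left (b c : 𝔹'.B₁₂) (n : N.N₁₂) :
    bcMk₁₂ h N (b + c) n = bcMk₁₂ h N b n + bcMk₁₂ h N c n := by
  letI := h.ψ₁₂.toAlgebra
  exact TensorProduct.add_tmul b c n

theorem bcMk₁₂_add_right (b : 𝔹'.B₁₂) (n n' : N.N₁₂) :
    bcMk₁₂ h N b (n + n') = bcMk₁₂ h N b n + bcMk₁₂ h N b n' := by
  letI := h.ψ₁₂.toAlgebra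
  exact TensorProduct.tmul_add b n n'

theorem bcMk₁₂_smul_right (b : 𝔹'.B₁₂) (a : 𝔹.B₁₂) (n : N.N₁₂) :
    bcMk₁₂ h N b (a • n) = bcMk₁₂ h N (h.ψ₁₂ a * b) n := by
  letI := h.ψ₁₂.toAlgebra
  exact (TensorProduct.smul_tmul a b n).symm

/-- Induction principle for the first chart of a base change. -/
theorem baseChange_induction₁ {motive : (N.baseChange h).N₁ → Prop} (zero : motive 0)
    (mk : ∀ b n, motive (bcMk₁ h N b n)) (add : ∀ x y, motive x → motive y → motive (x + y))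
    (x : (N.baseChange h).N₁) : motive x := by
  letI := h.ψ₁.toAlgebra
  exact TensorProduct.induction_on (motive := motive) x zero mk add

/-- Induction principle for the second chart of a base change. -/
theorem baseChange_induction₂ {motive : (N.baseChange h).N₂ → Prop} (zero : motive 0)
    (mk : ∀ b n, motive (bcMk₂ h N b n)) (add : ∀ x y, motive x → motive y → motive (x + y))
    (x : (N.baseChange h).N₂) : motive x := by
  letI := h.ψ₂.toAlgebra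
  exact TensorProduct.induction_on (motive := motive) x zero mk add

/-- Induction principle for the overlap of a base change. -/
theorem baseChange_induction₁₂ {motive : (N.baseChange h).N₁₂ → Prop} (zero : motive 0)
    (mk : ∀ b n, motive (bcMk₁₂ h N b n)) (add : ∀ x y, motive x → motive y → motive (x + y))
    (x : (N.baseChange h).N₁₂) : motive x := by
  letI := h.ψ₁₂.toAlgebra
  exact TensorProduct.induction_on (motive := motive) x zero mk add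

@[simp] theorem baseChange_ι₁_bcMk₁ (b : 𝔹'.B₁) (n : N.N₁) :
    (N.baseChange h).ι₁ (bcMk₁ h N b n) = bcMk₁₂ h N (𝔹'.r₁ b) (N.ι₁ n) :=
  h.bcι₁_tmul N b n

@[simp] theorem baseChange_ι₂_bcMk₂ (b : 𝔹'.B₂) (n : N.N₂) :
    (N.baseChange h).ι₂ (bcMk₂ h N b n) = bcMk₁₂ h N (𝔹'.r₂ b) (N.ι₂ n) :=
  h.bcι₂_tmul N b n

/-! ### Universal property and functoriality -/

/-- Universal property of the chart `₁` of the base change: an additive map `g : N_₁ → Q`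
into a `B'_₁`-module which is semilinear over `h.ψ_₁` extends to a `B'_₁`-linear map. -/
noncomputable def bcLift₁ (h : TwoChart.Hom φ 𝔹 𝔹') (N : GluedModule 𝔹) {Q : Type*}
    [AddCommGroup Q] [Module 𝔹'.B₁ Q] (g : N.N₁ →+ Q)
    (hg : ∀ (a : 𝔹.B₁) (n : N.N₁), g (a • n) = h.ψ₁ a • g n) :
    (N.baseChange h).N₁ →ₗ[𝔹'.B₁] Q :=
  letI := h.ψ₁.toAlgebra
  letI : Module 𝔹.B₁ Q := Module.compHom Q h.ψ₁
  haveI : IsScalarTower 𝔹.B₁ 𝔹'.B₁ Q :=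
    ⟨fun a b q => by change (h.ψ₁ a * b) • q = h.ψ₁ a • b • q; rw [mul_smul]⟩
  LinearMap.liftBaseChange 𝔹'.B₁
    ({ toFun := g, map_add' := g.map_add, map_smul' := hg } : N.N₁ →ₗ[𝔹.B₁] Q)

@[simp] theorem bcLift₁_bcMk₁ {Q : Type*} [AddCommGroup Q] [Module 𝔹'.B₁ Q] (g : N.N₁ →+ Q)
    (hg : ∀ (a : 𝔹.B₁) (n : N.N₁), g (a • n) = h.ψ₁ a • g n) (b : 𝔹'.B₁) (n : N.N₁) :
    bcLift₁ h N g hg (bcMk₁ h N b n) = b • g n := rfl

/-- Two `B'_₁`-linear maps out of the chart `₁` of a base change agree if they agree on the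
pure tensors `1 ⊗ n`. -/
theorem bc_ext₁ {Q : Type*} [AddCommGroup Q] [Module 𝔹'.B₁ Q]
    {F G : (N.baseChange h).N₁ →ₗ[𝔹'.B₁] Q}
    (hFG : ∀ n : N.N₁, F (bcMk₁ h N 1 n) = G (bcMk₁ h N 1 n)) : F = G := by
  ext x
  induction x using baseChange_induction₁ with
  | zero => rw [map_zero, map_zero]
  | mk b n =>
    have e : bcMk₁ h N b n = b • bcMk₁ h N 1 n := by rw [smul_bcMk₁, mul_one]
    rw [e, map_smul, map_smul, hFG]
  | add x y hx hy => rw [map_add, map_add, hx, hy]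

/-- Chartwise functoriality of the base change (chart `₁`). -/
noncomputable def bcMap₁ (h : TwoChart.Hom φ 𝔹 𝔹') {N N' : GluedModule 𝔹}
    (f : N.N₁ →ₗ[𝔹.B₁] N'.N₁) : (N.baseChange h).N₁ →ₗ[𝔹'.B₁] (N'.baseChange h).N₁ :=
  bcLift₁ h N
    { toFun := fun n => bcMk₁ h N' 1 (f n)
      map_zero' := by
        rw [map_zero]
        have := bcMk₁_add_right (h := h) (N := N') 1 0 0
        rw [add_zero] at this
        exact left_eq_add.mp this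
      map_add' := fun x y => by rw [map_add, bcMk₁_add_right] }
    (fun a n => by
      change bcMk₁ h N' 1 (f (a • n)) = h.ψ₁ a • bcMk₁ h N' 1 (f n)
      rw [map_smul, bcMk₁_smul_right, smul_bcMk₁])

@[simp] theorem bcMap₁_bcMk₁ {N' : GluedModule 𝔹} (f : N.N₁ →ₗ[𝔹.B₁] N'.N₁) (b : 𝔹'.B₁)
    (n : N.N₁) : bcMap₁ h f (bcMk₁ h N b n) = bcMk₁ h N' b (f n) := by
  change b • bcMk₁ h N' 1 (f n) = _
  rw [smul_bcMk₁, mul_one]

theorem bcMap₁_id : bcMap₁ h (LinearMap.id : N.N₁ →ₗ[𝔹.B₁] N.N₁) = LinearMap.id :=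
  bc_ext₁ fun n => by rw [bcMap₁_bcMk₁]; rfl

theorem bcMap₁_comp {N' N'' : GluedModule 𝔹} (f' : N'.N₁ →ₗ[𝔹.B₁] N''.N₁)
    (f : N.N₁ →ₗ[𝔹.B₁] N'.N₁) : bcMap₁ h (f' ∘ₗ f) = bcMap₁ h f' ∘ₗ bcMap₁ h f :=
  bc_ext₁ fun n => by
    simp only [bcMap₁_bcMk₁, LinearMap.comp_apply]

/-- Universal property of the chart `₂` of the base change: an additive map `g : N_₂ → Q`
into a `B'_₂`-module which is semilinear over `h.ψ_₂` extends to a `B'_₂`-linear map. -/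
noncomputable def bcLift₂ (h : TwoChart.Hom φ 𝔹 𝔹') (N : GluedModule 𝔹) {Q : Type*}
    [AddCommGroup Q] [Module 𝔹'.B₂ Q] (g : N.N₂ →+ Q)
    (hg : ∀ (a : 𝔹.B₂) (n : N.N₂), g (a • n) = h.ψ₂ a • g n) :
    (N.baseChange h).N₂ →ₗ[𝔹'.B₂] Q :=
  letI := h.ψ₂.toAlgebra
  letI : Module 𝔹.B₂ Q := Module.compHom Q h.ψ₂
  haveI : IsScalarTower 𝔹.B₂ 𝔹'.B₂ Q :=
    ⟨fun a b q => by change (h.ψ₂ a * b) • q = h.ψ₂ a • b • q; rw [mul_smul]⟩
  LinearMap.liftBaseChange 𝔹'.B₂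
    ({ toFun := g, map_add' := g.map_add, map_smul' := hg } : N.N₂ →ₗ[𝔹.B₂] Q)

@[simp] theorem bcLift₂_bcMk₂ {Q : Type*} [AddCommGroup Q] [Module 𝔹'.B₂ Q] (g : N.N₂ →+ Q)
    (hg : ∀ (a : 𝔹.B₂) (n : N.N₂), g (a • n) = h.ψ₂ a • g n) (b : 𝔹'.B₂) (n : N.N₂) :
    bcLift₂ h N g hg (bcMk₂ h N b n) = b • g n := rfl

/-- Two `B'_₂`-linear maps out of the chart `₂` of a base change agree if they agree on the
pure tensors `1 ⊗ n`. -/
theorem bc_ext₂ {Q : Type*} [AddCommGroup Q] [Module 𝔹'.B₂ Q]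
    {F G : (N.baseChange h).N₂ →ₗ[𝔹'.B₂] Q}
    (hFG : ∀ n : N.N₂, F (bcMk₂ h N 1 n) = G (bcMk₂ h N 1 n)) : F = G := by
  ext x
  induction x using baseChange_induction₂ with
  | zero => rw [map_zero, map_zero]
  | mk b n =>
    have e : bcMk₂ h N b n = b • bcMk₂ h N 1 n := by rw [smul_bcMk₂, mul_one]
    rw [e, map_smul, map_smul, hFG]
  | add x y hx hy => rw [map_add, map_add, hx, hy]

/-- Chartwise functoriality of the base change (chart `₂`). -/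
noncomputable def bcMap₂ (h : TwoChart.Hom φ 𝔹 𝔹') {N N' : GluedModule 𝔹}
    (f : N.N₂ →ₗ[𝔹.B₂] N'.N₂) : (N.baseChange h).N₂ →ₗ[𝔹'.B₂] (N'.baseChange h).N₂ :=
  bcLift₂ h N
    { toFun := fun n => bcMk₂ h N' 1 (f n)
      map_zero' := by
        rw [map_zero]
        have := bcMk₂_add_right (h := h) (N := N') 1 0 0
        rw [add_zero] at this
        exact left_eq_add.mp this
      map_add' := fun x y => by rw [map_add, bcMk₂_add_right] }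
    (fun a n => by
      change bcMk₂ h N' 1 (f (a • n)) = h.ψ₂ a • bcMk₂ h N' 1 (f n)
      rw [map_smul, bcMk₂_smul_right, smul_bcMk₂])

@[simp] theorem bcMap₂_bcMk₂ {N' : GluedModule 𝔹} (f : N.N₂ →ₗ[𝔹.B₂] N'.N₂) (b : 𝔹'.B₂)
    (n : N.N₂) : bcMap₂ h f (bcMk₂ h N b n) = bcMk₂ h N' b (f n) := by
  change b • bcMk₂ h N' 1 (f n) = _
  rw [smul_bcMk₂, mul_one]

theorem bcMap₂_id : bcMap₂ h (LinearMap.id : N.N₂ →ₗ[𝔹.B₂] N.N₂) = LinearMap.id :=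
  bc_ext₂ fun n => by rw [bcMap₂_bcMk₂]; rfl

theorem bcMap₂_comp {N' N'' : GluedModule 𝔹} (f' : N'.N₂ →ₗ[𝔹.B₂] N''.N₂)
    (f : N.N₂ →ₗ[𝔹.B₂] N'.N₂) : bcMap₂ h (f' ∘ₗ f) = bcMap₂ h f' ∘ₗ bcMap₂ h f :=
  bc_ext₂ fun n => by
    simp only [bcMap₂_bcMk₂, LinearMap.comp_apply]

/-- Universal property of the chart `₁₂` of the base change: an additive map `g : N_₁₂ → Q`
into a `B'_₁₂`-module which is semilinear over `h.ψ_₁₂` extends to a `B'_₁₂`-linear map. -/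
noncomputable def bcLift₁₂ (h : TwoChart.Hom φ 𝔹 𝔹') (N : GluedModule 𝔹) {Q : Type*}
    [AddCommGroup Q] [Module 𝔹'.B₁₂ Q] (g : N.N₁₂ →+ Q)
    (hg : ∀ (a : 𝔹.B₁₂) (n : N.N₁₂), g (a • n) = h.ψ₁₂ a • g n) :
    (N.baseChange h).N₁₂ →ₗ[𝔹'.B₁₂] Q :=
  letI := h.ψ₁₂.toAlgebra
  letI : Module 𝔹.B₁₂ Q := Module.compHom Q h.ψ₁₂
  haveI : IsScalarTower 𝔹.B₁₂ 𝔹'.B₁₂ Q :=
    ⟨fun a b q => by change (h.ψ₁₂ a * b) • q = h.ψ₁₂ a • b • q; rw [mul_smul]⟩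
  LinearMap.liftBaseChange 𝔹'.B₁₂
    ({ toFun := g, map_add' := g.map_add, map_smul' := hg } : N.N₁₂ →ₗ[𝔹.B₁₂] Q)

@[simp] theorem bcLift₁₂_bcMk₁₂ {Q : Type*} [AddCommGroup Q] [Module 𝔹'.B₁₂ Q] (g : N.N₁₂ →+ Q)
    (hg : ∀ (a : 𝔹.B₁₂) (n : N.N₁₂), g (a • n) = h.ψ₁₂ a • g n) (b : 𝔹'.B₁₂) (n : N.N₁₂) :
    bcLift₁₂ h N g hg (bcMk₁₂ h N b n) = b • g n := rfl

/-- Two `B'_₁₂`-linear maps out of the chart `₁₂` of a base change agree if they agree on the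
pure tensors `1 ⊗ n`. -/
theorem bc_ext₁₂ {Q : Type*} [AddCommGroup Q] [Module 𝔹'.B₁₂ Q]
    {F G : (N.baseChange h).N₁₂ →ₗ[𝔹'.B₁₂] Q}
    (hFG : ∀ n : N.N₁₂, F (bcMk₁₂ h N 1 n) = G (bcMk₁₂ h N 1 n)) : F = G := by
  ext x
  induction x using baseChange_induction₁₂ with
  | zero => rw [map_zero, map_zero]
  | mk b n =>
    have e : bcMk₁₂ h N b n = b • bcMk₁₂ h N 1 n := by rw [smul_bcMk₁₂, mul_one]
    rw [e, map_smul, map_smul, hFG]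
  | add x y hx hy => rw [map_add, map_add, hx, hy]

/-- Chartwise functoriality of the base change (chart `₁₂`). -/
noncomputable def bcMap₁₂ (h : TwoChart.Hom φ 𝔹 𝔹') {N N' : GluedModule 𝔹}
    (f : N.N₁₂ →ₗ[𝔹.B₁₂] N'.N₁₂) : (N.baseChange h).N₁₂ →ₗ[𝔹'.B₁₂] (N'.baseChange h).N₁₂ :=
  bcLift₁₂ h N
    { toFun := fun n => bcMk₁₂ h N' 1 (f n)
      map_zero' := by
        rw [map_zero]
        have := bcMk₁₂_add_right (h := h) (N := N') 1 0 0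
        rw [add_zero] at this
        exact left_eq_add.mp this
      map_add' := fun x y => by rw [map_add, bcMk₁₂_add_right] }
    (fun a n => by
      change bcMk₁₂ h N' 1 (f (a • n)) = h.ψ₁₂ a • bcMk₁₂ h N' 1 (f n)
      rw [map_smul, bcMk₁₂_smul_right, smul_bcMk₁₂])

@[simp] theorem bcMap₁₂_bcMk₁₂ {N' : GluedModule 𝔹} (f : N.N₁₂ →ₗ[𝔹.B₁₂] N'.N₁₂) (b : 𝔹'.B₁₂)
    (n : N.N₁₂) : bcMap₁₂ h f (bcMk₁₂ h N b n) = bcMk₁₂ h N' b (f n) := by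
  change b • bcMk₁₂ h N' 1 (f n) = _
  rw [smul_bcMk₁₂, mul_one]

theorem bcMap₁₂_id : bcMap₁₂ h (LinearMap.id : N.N₁₂ →ₗ[𝔹.B₁₂] N.N₁₂) = LinearMap.id :=
  bc_ext₁₂ fun n => by rw [bcMap₁₂_bcMk₁₂]; rfl

theorem bcMap₁₂_comp {N' N'' : GluedModule 𝔹} (f' : N'.N₁₂ →ₗ[𝔹.B₁₂] N''.N₁₂)
    (f : N.N₁₂ →ₗ[𝔹.B₁₂] N'.N₁₂) : bcMap₁₂ h (f' ∘ₗ f) = bcMap₁₂ h f' ∘ₗ bcMap₁₂ h f :=
  bc_ext₁₂ fun n => by
    simp only [bcMap₁₂_bcMk₁₂, LinearMap.comp_apply]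

/-- Base change of a morphism of glued modules. -/
noncomputable def Hom.baseChange (h : TwoChart.Hom φ 𝔹 𝔹') {N N' : GluedModule 𝔹}
    (ψ : Hom N N') : Hom (N.baseChange h) (N'.baseChange h) where
  φ₁ := bcMap₁ h ψ.φ₁
  φ₂ := bcMap₂ h ψ.φ₂
  φ₁₂ := bcMap₁₂ h ψ.φ₁₂
  comm₁ x := by
    induction x using baseChange_induction₁ with
    | zero => simp only [map_zero]
    | mk b n => simp only [baseChange_ι₁_bcMk₁, bcMap₁₂_bcMk₁₂, bcMap₁_bcMk₁, ψ.comm₁]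
    | add x y hx hy => simp only [map_add, hx, hy]
  comm₂ x := by
    induction x using baseChange_induction₂ with
    | zero => simp only [map_zero]
    | mk b n => simp only [baseChange_ι₂_bcMk₂, bcMap₁₂_bcMk₁₂, bcMap₂_bcMk₂, ψ.comm₂]
    | add x y hx hy => simp only [map_add, hx, hy]

theorem Hom.baseChange_id (N : GluedModule 𝔹) :
    (Hom.id N).baseChange h = Hom.id (N.baseChange h) := by
  apply Hom.ext
  · exact bcMap₁_id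
  · exact bcMap₂_id
  · exact bcMap₁₂_id

theorem Hom.baseChange_comp {N N' N'' : GluedModule 𝔹} (ψ' : Hom N' N'') (ψ : Hom N N') :
    (ψ'.comp ψ).baseChange h = (ψ'.baseChange h).comp (ψ.baseChange h) := by
  apply Hom.ext
  · exact bcMap₁_comp _ _
  · exact bcMap₂_comp _ _
  · exact bcMap₁₂_comp _ _

/-- Construct an isomorphism from two mutually inverse morphisms. -/
def Iso.ofHom {N N' : GluedModule 𝔹} (f : Hom N N') (g : Hom N' N)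
    (hgf : g.comp f = Hom.id N) (hfg : f.comp g = Hom.id N') : Iso N N' where
  e₁ := LinearEquiv.ofLinearMap f.φ₁ g.φ₁ (congrArg Hom.φ₁ hfg) (congrArg Hom.φ₁ hgf)
  e₂ := LinearEquiv.ofLinearMap f.φ₂ g.φ₂ (congrArg Hom.φ₂ hfg) (congrArg Hom.φ₂ hgf)
  e₁₂ := LinearEquiv.ofLinearMap f.φ₁₂ g.φ₁₂ (congrArg Hom.φ₁₂ hfg) (congrArg Hom.φ₁₂ hgf)
  comm₁ := f.comm₁
  comm₂ := f.comm₂

/-- Base change of an isomorphism of glued modules. -/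
noncomputable def Iso.baseChange (h : TwoChart.Hom φ 𝔹 𝔹') {N N' : GluedModule 𝔹}
    (e : Iso N N') : Iso (N.baseChange h) (N'.baseChange h) :=
  Iso.ofHom (e.toHom.baseChange h) (e.symm.toHom.baseChange h)
    (by rw [← Hom.baseChange_comp, e.symm_toHom_comp_toHom, Hom.baseChange_id])
    (by rw [← Hom.baseChange_comp, e.toHom_comp_symm_toHom, Hom.baseChange_id])

theorem IsIso.baseChange (h : TwoChart.Hom φ 𝔹 𝔹') {N N' : GluedModule 𝔹} (e : IsIso N N') :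
    IsIso (N.baseChange h) (N'.baseChange h) := ⟨e.some.baseChange h⟩

/-- The base change of a line bundle is a line bundle. -/
theorem baseChange_isLineBundle (h : TwoChart.Hom φ 𝔹 𝔹') {N : GluedModule 𝔹}
    (hN : N.IsLineBundle) : (N.baseChange h).IsLineBundle := by
  letI := h.ψ₁.toAlgebra; letI := h.ψ₂.toAlgebra
  haveI := hN.inv₁
  haveI := hN.inv₂
  exact ⟨inferInstanceAs (Module.Invertible 𝔹'.B₁ (𝔹'.B₁ ⊗[𝔹.B₁] N.N₁)),
    inferInstanceAs (Module.Invertible 𝔹'.B₂ (𝔹'.B₂ ⊗[𝔹.B₂] N.N₂))⟩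

/-! ### Base change of the unit and of twists -/

/-- Chart `₁` of `baseChangeUnit`: `B'_₁ ⊗[B_₁] B_₁ ≃ B'_₁`. -/
noncomputable def bcUnitEquiv₁ (h : TwoChart.Hom φ 𝔹 𝔹') :
    ((unit 𝔹).baseChange h).N₁ ≃ₗ[𝔹'.B₁] 𝔹'.B₁ :=
  LinearEquiv.ofLinearMap
    (bcLift₁ h (unit 𝔹) h.ψ₁.toAddMonoidHom (fun a n => by
      change h.ψ₁ (a * n) = h.ψ₁ a * h.ψ₁ n
      rw [map_mul]))
    (LinearMap.toSpanSingleton 𝔹'.B₁ _ (bcMk₁ h (unit 𝔹) 1 1))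
    (by
      apply LinearMap.ext_ring
      simp only [LinearMap.comp_apply, LinearMap.toSpanSingleton_apply, one_smul,
        bcLift₁_bcMk₁, LinearMap.id_apply]
      change h.ψ₁ 1 = 1
      rw [map_one])
    (bc_ext₁ fun a => by
      simp only [LinearMap.comp_apply, LinearMap.toSpanSingleton_apply, bcLift₁_bcMk₁,
        LinearMap.id_apply, one_smul, smul_bcMk₁]
      change bcMk₁ h (unit 𝔹) (h.ψ₁ a * 1) 1 = bcMk₁ h (unit 𝔹) 1 a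
      rw [← bcMk₁_smul_right, smul_eq_mul, mul_one])

@[simp] theorem bcUnitEquiv₁_bcMk₁ (b : 𝔹'.B₁) (a : 𝔹.B₁) :
    bcUnitEquiv₁ h (bcMk₁ h (unit 𝔹) b a) = b * h.ψ₁ a := rfl

/-- Chart `₂` of `baseChangeUnit`: `B'_₂ ⊗[B_₂] B_₂ ≃ B'_₂`. -/
noncomputable def bcUnitEquiv₂ (h : TwoChart.Hom φ 𝔹 𝔹') :
    ((unit 𝔹).baseChange h).N₂ ≃ₗ[𝔹'.B₂] 𝔹'.B₂ :=
  LinearEquiv.ofLinearMap
    (bcLift₂ h (unit 𝔹) h.ψ₂.toAddMonoidHom (fun a n => by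
      change h.ψ₂ (a * n) = h.ψ₂ a * h.ψ₂ n
      rw [map_mul]))
    (LinearMap.toSpanSingleton 𝔹'.B₂ _ (bcMk₂ h (unit 𝔹) 1 1))
    (by
      apply LinearMap.ext_ring
      simp only [LinearMap.comp_apply, LinearMap.toSpanSingleton_apply, one_smul,
        bcLift₂_bcMk₂, LinearMap.id_apply]
      change h.ψ₂ 1 = 1
      rw [map_one])
    (bc_ext₂ fun a => by
      simp only [LinearMap.comp_apply, LinearMap.toSpanSingleton_apply, bcLift₂_bcMk₂,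
        LinearMap.id_apply, one_smul, smul_bcMk₂]
      change bcMk₂ h (unit 𝔹) (h.ψ₂ a * 1) 1 = bcMk₂ h (unit 𝔹) 1 a
      rw [← bcMk₂_smul_right, smul_eq_mul, mul_one])

@[simp] theorem bcUnitEquiv₂_bcMk₂ (b : 𝔹'.B₂) (a : 𝔹.B₂) :
    bcUnitEquiv₂ h (bcMk₂ h (unit 𝔹) b a) = b * h.ψ₂ a := rfl

/-- Chart `₁₂` of `baseChangeUnit`: `B'_₁₂ ⊗[B_₁₂] B_₁₂ ≃ B'_₁₂`. -/
noncomputable def bcUnitEquiv₁₂ (h : TwoChart.Hom φ 𝔹 𝔹') :
    ((unit 𝔹).baseChange h).N₁₂ ≃ₗ[𝔹'.B₁₂] 𝔹'.B₁₂ :=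
  LinearEquiv.ofLinearMap
    (bcLift₁₂ h (unit 𝔹) h.ψ₁₂.toAddMonoidHom (fun a n => by
      change h.ψ₁₂ (a * n) = h.ψ₁₂ a * h.ψ₁₂ n
      rw [map_mul]))
    (LinearMap.toSpanSingleton 𝔹'.B₁₂ _ (bcMk₁₂ h (unit 𝔹) 1 1))
    (by
      apply LinearMap.ext_ring
      simp only [LinearMap.comp_apply, LinearMap.toSpanSingleton_apply, one_smul,
        bcLift₁₂_bcMk₁₂, LinearMap.id_apply]
      change h.ψ₁₂ 1 = 1
      rw [map_one])
    (bc_ext₁₂ fun a => by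
      simp only [LinearMap.comp_apply, LinearMap.toSpanSingleton_apply, bcLift₁₂_bcMk₁₂,
        LinearMap.id_apply, one_smul, smul_bcMk₁₂]
      change bcMk₁₂ h (unit 𝔹) (h.ψ₁₂ a * 1) 1 = bcMk₁₂ h (unit 𝔹) 1 a
      rw [← bcMk₁₂_smul_right, smul_eq_mul, mul_one])

@[simp] theorem bcUnitEquiv₁₂_bcMk₁₂ (b : 𝔹'.B₁₂) (a : 𝔹.B₁₂) :
    bcUnitEquiv₁₂ h (bcMk₁₂ h (unit 𝔹) b a) = b * h.ψ₁₂ a := rfl

/-- The base change of `O` is `O`. -/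
noncomputable def baseChangeUnit (h : TwoChart.Hom φ 𝔹 𝔹') :
    Iso ((unit 𝔹).baseChange h) (unit 𝔹') where
  e₁ := bcUnitEquiv₁ h
  e₂ := bcUnitEquiv₂ h
  e₁₂ := bcUnitEquiv₁₂ h
  comm₁ x := by
    induction x using baseChange_induction₁ with
    | zero => simp only [map_zero]
    | mk b a =>
      rw [baseChange_ι₁_bcMk₁, bcUnitEquiv₁₂_bcMk₁₂, bcUnitEquiv₁_bcMk₁, unit_ι₁, unit_ι₁,
        h.comm₁, map_mul]
    | add x y hx hy => simp only [map_add, hx, hy]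
  comm₂ x := by
    induction x using baseChange_induction₂ with
    | zero => simp only [map_zero]
    | mk b a =>
      rw [baseChange_ι₂_bcMk₂, bcUnitEquiv₁₂_bcMk₁₂, bcUnitEquiv₂_bcMk₂, unit_ι₂, unit_ι₂,
        h.comm₂, map_mul]
    | add x y hx hy => simp only [map_add, hx, hy]

theorem _root_.Fermat.Agent.S25.TwoChart.Hom.map_u (h : TwoChart.Hom φ 𝔹 𝔹') (n : ℤ) :
    h.ψ₁₂ ((𝔹.u ^ n : 𝔹.B₁₂ˣ) : 𝔹.B₁₂) = ((𝔹'.u ^ n : 𝔹'.B₁₂ˣ) : 𝔹'.B₁₂) := by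
  have hu : Units.map (h.ψ₁₂ : 𝔹.B₁₂ →* 𝔹'.B₁₂) 𝔹.u = 𝔹'.u := by
    apply Units.ext
    change h.ψ₁₂ (𝔹.r₁ 𝔹.f) = 𝔹'.r₁ 𝔹'.f
    rw [h.comm₁, h.map_f]
  rw [← hu, ← map_zpow]
  rfl

theorem baseChange_twist_ι₂ (h : TwoChart.Hom φ 𝔹 𝔹') (N : GluedModule 𝔹) (n : ℤ)
    (x : ((N.twist n).baseChange h).N₂) :
    ((N.twist n).baseChange h).ι₂ x =
      ((𝔹'.u ^ n : 𝔹'.B₁₂ˣ) : 𝔹'.B₁₂) • (N.baseChange h).ι₂ x := by
  induction x using baseChange_induction₂ with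
  | zero =>
    change ((N.twist n).baseChange h).ι₂ 0 =
      ((𝔹'.u ^ n : 𝔹'.B₁₂ˣ) : 𝔹'.B₁₂) • (N.baseChange h).ι₂ (0 : (N.baseChange h).N₂)
    rw [map_zero, map_zero, smul_zero]
    rfl
  | mk b m =>
    change ((N.twist n).baseChange h).ι₂ (bcMk₂ h (N.twist n) b m) =
      ((𝔹'.u ^ n : 𝔹'.B₁₂ˣ) : 𝔹'.B₁₂) • (N.baseChange h).ι₂ (bcMk₂ h N b m)
    rw [baseChange_ι₂_bcMk₂, baseChange_ι₂_bcMk₂, smul_bcMk₁₂, ← h.map_u]
    exact bcMk₁₂_smul_right (h := h) (N := N) (𝔹'.r₂ b) _ (N.ι₂ m)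
  | add x y hx hy =>
    have e1 := map_add ((N.twist n).baseChange h).ι₂ x y
    have e2 := map_add (N.baseChange h).ι₂ x y
    exact e1.trans ((congrArg₂ (· + ·) hx hy).trans
      ((smul_add _ _ _).symm.trans (congrArg _ e2.symm)))

/-- Base change commutes with twists. -/
noncomputable def baseChangeTwist (h : TwoChart.Hom φ 𝔹 𝔹') (N : GluedModule 𝔹) (n : ℤ) :
    Iso ((N.twist n).baseChange h) ((N.baseChange h).twist n) where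
  e₁ := LinearEquiv.refl _ _
  e₂ := LinearEquiv.refl _ _
  e₁₂ := LinearEquiv.refl _ _
  comm₁ _ := rfl
  comm₂ x := baseChange_twist_ι₂ h N n x

end GluedModule

end Fermat.Agent.S25
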