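/-
S25 LIB (helper7630): small tools for morphisms of glued modules — the overlap component of a
morphism is controlled by either chart component; a chartwise bijective morphism is an
isomorphism (`Iso.ofBijective`; the same definition was published independently by helper1370
in `Lib/SubQuot.lean`, merged here).
-/
import Fermat.Agent.S25.A1.Basic

set_option autoImplicit false

universe u

namespace Fermat.Agent.S25

namespace GluedModule

section homTools

variable {R : Type u} [CommRing R] {𝔹 : TwoChart R} {N N' : GluedModule 𝔹}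

/-- A morphism injective on the first chart is injective on the overlap. -/
theorem Hom.φ₁₂_injective_of₁ (F : Hom N N') (h₁ : Function.Injective F.φ₁) :
    Function.Injective F.φ₁₂ := by
  rw [injective_iff_map_eq_zero]
  intro y hy
  obtain ⟨n, m, rfl⟩ := N.surj₁ y
  rw [map_smul, F.comm₁] at hy
  have h1 : N'.ι₁ (F.φ₁ n) = 0 := by
    have h2 := congrArg (fun z => (𝔹.r₁ 𝔹.f) ^ m • z) hy
    simpa only [← mul_smul, ← mul_pow, 𝔹.fg, one_pow, one_smul, smul_zero] using h2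
  obtain ⟨k, hk⟩ := N'.ker₁ _ h1
  rw [← map_smul] at hk
  have h3 : 𝔹.f ^ k • n = 0 := h₁ (by rw [hk, map_zero])
  have h4 : N.ι₁ n = 0 := by
    have h5 : (𝔹.r₁ 𝔹.f) ^ k • N.ι₁ n = 0 := by
      rw [← map_pow, ← N.ι₁_smul, h3, map_zero]
    have h6 := congrArg (fun z => (𝔹.r₂ 𝔹.g) ^ k • z) h5
    simpa only [← mul_smul, ← mul_pow, 𝔹.gf, one_pow, one_smul, smul_zero] using h6
  rw [h4, smul_zero]

/-- A morphism surjective on the first chart is surjective on the overlap. -/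
theorem Hom.φ₁₂_surjective_of₁ (F : Hom N N') (h₁ : Function.Surjective F.φ₁) :
    Function.Surjective F.φ₁₂ := by
  intro y
  obtain ⟨n, m, rfl⟩ := N'.surj₁ y
  obtain ⟨x, rfl⟩ := h₁ n
  exact ⟨(𝔹.r₂ 𝔹.g) ^ m • N.ι₁ x, by rw [map_smul, F.comm₁]⟩

/-- A morphism injective on the second chart is injective on the overlap. -/
theorem Hom.φ₁₂_injective_of₂ (F : Hom N N') (h₂ : Function.Injective F.φ₂) :
    Function.Injective F.φ₁₂ := by
  rw [injective_iff_map_eq_zero]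
  intro y hy
  obtain ⟨n, m, rfl⟩ := N.surj₂ y
  rw [map_smul, F.comm₂] at hy
  have h1 : N'.ι₂ (F.φ₂ n) = 0 := by
    have h2 := congrArg (fun z => (𝔹.r₂ 𝔹.g) ^ m • z) hy
    simpa only [← mul_smul, ← mul_pow, 𝔹.gf, one_pow, one_smul, smul_zero] using h2
  obtain ⟨k, hk⟩ := N'.ker₂ _ h1
  rw [← map_smul] at hk
  have h3 : 𝔹.g ^ k • n = 0 := h₂ (by rw [hk, map_zero])
  have h4 : N.ι₂ n = 0 := by
    have h5 : (𝔹.r₂ 𝔹.g) ^ k • N.ι₂ n = 0 := by
      rw [← map_pow, ← N.ι₂_smul, h3, map_zero]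
    have h6 := congrArg (fun z => (𝔹.r₁ 𝔹.f) ^ k • z) h5
    simpa only [← mul_smul, ← mul_pow, 𝔹.fg, one_pow, one_smul, smul_zero] using h6
  rw [h4, smul_zero]

/-- A morphism surjective on the second chart is surjective on the overlap. -/
theorem Hom.φ₁₂_surjective_of₂ (F : Hom N N') (h₂ : Function.Surjective F.φ₂) :
    Function.Surjective F.φ₁₂ := by
  intro y
  obtain ⟨n, m, rfl⟩ := N'.surj₂ y
  obtain ⟨x, rfl⟩ := h₂ n
  exact ⟨(𝔹.r₁ 𝔹.f) ^ m • N.ι₂ x, by rw [map_smul, F.comm₂]⟩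

/-- The overlap component of a morphism is determined by the first chart component. -/
theorem Hom.φ₁₂_eq_of₁ {F G : Hom N N'} (h : F.φ₁ = G.φ₁) : F.φ₁₂ = G.φ₁₂ := by
  ext y
  obtain ⟨n, m, rfl⟩ := N.surj₁ y
  rw [map_smul, map_smul, F.comm₁, G.comm₁, h]

/-- Two morphisms agreeing on both charts are equal. -/
theorem Hom.ext_charts {F G : Hom N N'} (h₁ : F.φ₁ = G.φ₁) (h₂ : F.φ₂ = G.φ₂) : F = G :=
  Hom.ext h₁ h₂ (Hom.φ₁₂_eq_of₁ h₁)

/-- A morphism of glued modules which is bijective on both charts is an isomorphism. -/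
noncomputable def Iso.ofBijective (F : Hom N N') (h₁ : Function.Bijective F.φ₁)
    (h₂ : Function.Bijective F.φ₂) : Iso N N' where
  e₁ := LinearEquiv.ofBijective F.φ₁ h₁
  e₂ := LinearEquiv.ofBijective F.φ₂ h₂
  e₁₂ := LinearEquiv.ofBijective F.φ₁₂ ⟨F.φ₁₂_injective_of₁ h₁.1, F.φ₁₂_surjective_of₁ h₁.2⟩
  comm₁ := F.comm₁
  comm₂ := F.comm₂

@[simp] theorem Iso.ofBijective_e₁ (F : Hom N N') (h₁ : Function.Bijective F.φ₁)
    (h₂ : Function.Bijective F.φ₂) (n : N.N₁) : (Iso.ofBijective F h₁ h₂).e₁ n = F.φ₁ n := rfl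

@[simp] theorem Iso.ofBijective_e₂ (F : Hom N N') (h₁ : Function.Bijective F.φ₁)
    (h₂ : Function.Bijective F.φ₂) (n : N.N₂) : (Iso.ofBijective F h₁ h₂).e₂ n = F.φ₂ n := rfl

@[simp] theorem Iso.ofBijective_e₁₂ (F : Hom N N') (h₁ : Function.Bijective F.φ₁)
    (h₂ : Function.Bijective F.φ₂) (n : N.N₁₂) :
    (Iso.ofBijective F h₁ h₂).e₁₂ n = F.φ₁₂ n := rfl

end homTools

@[simp] theorem Iso.ofBijective_toHom {R : Type u} [CommRing R] {𝔹 : TwoChart R}
    {N N' : GluedModule 𝔹} (φ : Hom N N')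
    (h₁ : Function.Bijective φ.φ₁) (h₂ : Function.Bijective φ.φ₂) :
    (Iso.ofBijective φ h₁ h₂).toHom = φ := by
  ext x <;> rfl

end GluedModule

end Fermat.Agent.S25
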