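/-
S25 LIB (helper7630): bridge between the concrete base change `N.baseChange Ψ` and the frozen
relation `IsBC` / `BaseChangeData`; transport of base change data along isomorphisms, identity
and composition.  (The `Hom` tools `Iso.ofBijective` etc. live in `Lib/HomTools.lean`.)
-/
import Fermat.Agent.S25.Lib.BaseChangeAPI
import Fermat.Agent.S25.Lib.HomTools

set_option autoImplicit false

universe u

namespace Fermat.Agent.S25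

open scoped TensorProduct

namespace GluedModule

section bridge

variable {R R' : Type u} [CommRing R] [CommRing R'] {φ : R →+* R'}
  {𝔹 : TwoChart R} {𝔹' : TwoChart R'}

/-- The concrete base change `N.baseChange Ψ` satisfies the frozen universal property. -/
noncomputable def baseChangeData (Ψ : TwoChart.Hom φ 𝔹 𝔹') (N : GluedModule 𝔹) :
    BaseChangeData Ψ N (N.baseChange Ψ) where
  j₁ := AddMonoidHom.mk' (bcMk₁ Ψ N 1) (bcMk₁_add_right 1)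
  j₂ := AddMonoidHom.mk' (bcMk₂ Ψ N 1) (bcMk₂_add_right 1)
  j₁₂ := AddMonoidHom.mk' (bcMk₁₂ Ψ N 1) (bcMk₁₂_add_right 1)
  j₁_smul := fun b n => by
    change bcMk₁ Ψ N 1 (b • n) = Ψ.ψ₁ b • bcMk₁ Ψ N 1 n
    rw [bcMk₁_smul_right, smul_bcMk₁]
  j₂_smul := fun b n => by
    change bcMk₂ Ψ N 1 (b • n) = Ψ.ψ₂ b • bcMk₂ Ψ N 1 n
    rw [bcMk₂_smul_right, smul_bcMk₂]
  j₁₂_smul := fun b n => by
    change bcMk₁₂ Ψ N 1 (b • n) = Ψ.ψ₁₂ b • bcMk₁₂ Ψ N 1 n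
    rw [bcMk₁₂_smul_right, smul_bcMk₁₂]
  comm₁ := fun n => by
    change bcMk₁₂ Ψ N 1 (N.ι₁ n) = (N.baseChange Ψ).ι₁ (bcMk₁ Ψ N 1 n)
    rw [baseChange_ι₁_bcMk₁, map_one]
  comm₂ := fun n => by
    change bcMk₁₂ Ψ N 1 (N.ι₂ n) = (N.baseChange Ψ).ι₂ (bcMk₂ Ψ N 1 n)
    rw [baseChange_ι₂_bcMk₂, map_one]
  univ₁ := fun Q _ _ h hh =>
    ⟨bcLift₁ Ψ N h hh, fun n => by
      change bcLift₁ Ψ N h hh (bcMk₁ Ψ N 1 n) = h n
      rw [bcLift₁_bcMk₁, one_smul],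
    fun F hF => bc_ext₁ fun n => by
      rw [bcLift₁_bcMk₁, one_smul]
      exact hF n⟩
  univ₂ := fun Q _ _ h hh =>
    ⟨bcLift₂ Ψ N h hh, fun n => by
      change bcLift₂ Ψ N h hh (bcMk₂ Ψ N 1 n) = h n
      rw [bcLift₂_bcMk₂, one_smul],
    fun F hF => bc_ext₂ fun n => by
      rw [bcLift₂_bcMk₂, one_smul]
      exact hF n⟩

@[simp] theorem baseChangeData_j₁ (Ψ : TwoChart.Hom φ 𝔹 𝔹') (N : GluedModule 𝔹) (n : N.N₁) :
    (baseChangeData Ψ N).j₁ n = bcMk₁ Ψ N 1 n := rfl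

@[simp] theorem baseChangeData_j₂ (Ψ : TwoChart.Hom φ 𝔹 𝔹') (N : GluedModule 𝔹) (n : N.N₂) :
    (baseChangeData Ψ N).j₂ n = bcMk₂ Ψ N 1 n := rfl

@[simp] theorem baseChangeData_j₁₂ (Ψ : TwoChart.Hom φ 𝔹 𝔹') (N : GluedModule 𝔹) (n : N.N₁₂) :
    (baseChangeData Ψ N).j₁₂ n = bcMk₁₂ Ψ N 1 n := rfl

/-- The concrete base change is a base change. -/
theorem isBC_baseChange (Ψ : TwoChart.Hom φ 𝔹 𝔹') (N : GluedModule 𝔹) :
    IsBC Ψ N (N.baseChange Ψ) := ⟨baseChangeData Ψ N⟩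

variable {Ψ : TwoChart.Hom φ 𝔹 𝔹'} {N : GluedModule 𝔹} {N' : GluedModule 𝔹'}

namespace BaseChangeData

/-- The comparison morphism `N.baseChange Ψ → N'` attached to base change data. -/
noncomputable def hom (D : BaseChangeData Ψ N N') : Hom (N.baseChange Ψ) N' where
  φ₁ := bcLift₁ Ψ N D.j₁ D.j₁_smul
  φ₂ := bcLift₂ Ψ N D.j₂ D.j₂_smul
  φ₁₂ := bcLift₁₂ Ψ N D.j₁₂ D.j₁₂_smul
  comm₁ := fun x => by
    induction x using baseChange_induction₁ with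
    | zero => rw [map_zero, map_zero, map_zero, map_zero]
    | mk b n =>
      rw [baseChange_ι₁_bcMk₁, bcLift₁₂_bcMk₁₂, bcLift₁_bcMk₁, N'.ι₁_smul, D.comm₁]
    | add x y hx hy => rw [map_add, map_add, map_add, map_add, hx, hy]
  comm₂ := fun x => by
    induction x using baseChange_induction₂ with
    | zero => rw [map_zero, map_zero, map_zero, map_zero]
    | mk b n =>
      rw [baseChange_ι₂_bcMk₂, bcLift₁₂_bcMk₁₂, bcLift₂_bcMk₂, N'.ι₂_smul, D.comm₂]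
    | add x y hx hy => rw [map_add, map_add, map_add, map_add, hx, hy]

@[simp] theorem hom_φ₁_bcMk₁ (D : BaseChangeData Ψ N N') (b : 𝔹'.B₁) (n : N.N₁) :
    D.hom.φ₁ (bcMk₁ Ψ N b n) = b • D.j₁ n := rfl

@[simp] theorem hom_φ₂_bcMk₂ (D : BaseChangeData Ψ N N') (b : 𝔹'.B₂) (n : N.N₂) :
    D.hom.φ₂ (bcMk₂ Ψ N b n) = b • D.j₂ n := rfl

@[simp] theorem hom_φ₁₂_bcMk₁₂ (D : BaseChangeData Ψ N N') (b : 𝔹'.B₁₂) (n : N.N₁₂) :
    D.hom.φ₁₂ (bcMk₁₂ Ψ N b n) = b • D.j₁₂ n := rfl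

theorem hom_bijective₁ (D : BaseChangeData Ψ N N') : Function.Bijective D.hom.φ₁ := by
  obtain ⟨G, hG, -⟩ := D.univ₁ (N.baseChange Ψ).N₁ (baseChangeData Ψ N).j₁
    (baseChangeData Ψ N).j₁_smul
  have h1 : G ∘ₗ D.hom.φ₁ = LinearMap.id := bc_ext₁ fun n => by
    rw [LinearMap.comp_apply, hom_φ₁_bcMk₁, one_smul, hG]
    rfl
  have h2 : D.hom.φ₁ ∘ₗ G = LinearMap.id :=
    (D.univ₁ N'.N₁ D.j₁ D.j₁_smul).unique
      (fun n => by
        rw [LinearMap.comp_apply, hG]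
        change D.hom.φ₁ (bcMk₁ Ψ N 1 n) = _
        rw [hom_φ₁_bcMk₁, one_smul])
      (fun n => rfl)
  refine ⟨fun x y hxy => ?_, fun y => ⟨G y, LinearMap.congr_fun h2 y⟩⟩
  have := congrArg G hxy
  rwa [← LinearMap.comp_apply, ← LinearMap.comp_apply, h1] at this

theorem hom_bijective₂ (D : BaseChangeData Ψ N N') : Function.Bijective D.hom.φ₂ := by
  obtain ⟨G, hG, -⟩ := D.univ₂ (N.baseChange Ψ).N₂ (baseChangeData Ψ N).j₂
    (baseChangeData Ψ N).j₂_smul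
  have h1 : G ∘ₗ D.hom.φ₂ = LinearMap.id := bc_ext₂ fun n => by
    rw [LinearMap.comp_apply, hom_φ₂_bcMk₂, one_smul, hG]
    rfl
  have h2 : D.hom.φ₂ ∘ₗ G = LinearMap.id :=
    (D.univ₂ N'.N₂ D.j₂ D.j₂_smul).unique
      (fun n => by
        rw [LinearMap.comp_apply, hG]
        change D.hom.φ₂ (bcMk₂ Ψ N 1 n) = _
        rw [hom_φ₂_bcMk₂, one_smul])
      (fun n => rfl)
  refine ⟨fun x y hxy => ?_, fun y => ⟨G y, LinearMap.congr_fun h2 y⟩⟩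
  have := congrArg G hxy
  rwa [← LinearMap.comp_apply, ← LinearMap.comp_apply, h1] at this

/-- Base change data identify `N'` with the concrete base change. -/
noncomputable def iso (D : BaseChangeData Ψ N N') : Iso (N.baseChange Ψ) N' :=
  Iso.ofBijective D.hom D.hom_bijective₁ D.hom_bijective₂

@[simp] theorem iso_e₁_bcMk₁ (D : BaseChangeData Ψ N N') (b : 𝔹'.B₁) (n : N.N₁) :
    D.iso.e₁ (bcMk₁ Ψ N b n) = b • D.j₁ n := rfl

@[simp] theorem iso_e₂_bcMk₂ (D : BaseChangeData Ψ N N') (b : 𝔹'.B₂) (n : N.N₂) :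
    D.iso.e₂ (bcMk₂ Ψ N b n) = b • D.j₂ n := rfl

@[simp] theorem iso_e₁₂_bcMk₁₂ (D : BaseChangeData Ψ N N') (b : 𝔹'.B₁₂) (n : N.N₁₂) :
    D.iso.e₁₂ (bcMk₁₂ Ψ N b n) = b • D.j₁₂ n := rfl

/-- Transport of base change data along an isomorphism of the target. -/
noncomputable def transTarget (D : BaseChangeData Ψ N N') {N'' : GluedModule 𝔹'}
    (e : Iso N' N'') : BaseChangeData Ψ N N'' where
  j₁ := (e.e₁ : N'.N₁ →+ N''.N₁).comp D.j₁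
  j₂ := (e.e₂ : N'.N₂ →+ N''.N₂).comp D.j₂
  j₁₂ := (e.e₁₂ : N'.N₁₂ →+ N''.N₁₂).comp D.j₁₂
  j₁_smul := fun b n => by
    change e.e₁ (D.j₁ (b • n)) = Ψ.ψ₁ b • e.e₁ (D.j₁ n)
    rw [D.j₁_smul, map_smul]
  j₂_smul := fun b n => by
    change e.e₂ (D.j₂ (b • n)) = Ψ.ψ₂ b • e.e₂ (D.j₂ n)
    rw [D.j₂_smul, map_smul]
  j₁₂_smul := fun b n => by
    change e.e₁₂ (D.j₁₂ (b • n)) = Ψ.ψ₁₂ b • e.e₁₂ (D.j₁₂ n)
    rw [D.j₁₂_smul, map_smul]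
  comm₁ := fun n => by
    change e.e₁₂ (D.j₁₂ (N.ι₁ n)) = N''.ι₁ (e.e₁ (D.j₁ n))
    rw [D.comm₁, e.comm₁]
  comm₂ := fun n => by
    change e.e₁₂ (D.j₁₂ (N.ι₂ n)) = N''.ι₂ (e.e₂ (D.j₂ n))
    rw [D.comm₂, e.comm₂]
  univ₁ := fun Q _ _ h hh => by
    obtain ⟨h', hh', huniq⟩ := D.univ₁ Q h hh
    refine ⟨h' ∘ₗ (e.e₁.symm : N''.N₁ →ₗ[𝔹'.B₁] N'.N₁), fun n => ?_, fun F hF => ?_⟩
    · change h' (e.e₁.symm (e.e₁ (D.j₁ n))) = h n
      rw [LinearEquiv.symm_apply_apply, hh']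
    · have := huniq (F ∘ₗ (e.e₁ : N'.N₁ →ₗ[𝔹'.B₁] N''.N₁)) (fun n => hF n)
      rw [← this]
      ext x
      change F x = F (e.e₁ (e.e₁.symm x))
      rw [LinearEquiv.apply_symm_apply]
  univ₂ := fun Q _ _ h hh => by
    obtain ⟨h', hh', huniq⟩ := D.univ₂ Q h hh
    refine ⟨h' ∘ₗ (e.e₂.symm : N''.N₂ →ₗ[𝔹'.B₂] N'.N₂), fun n => ?_, fun F hF => ?_⟩
    · change h' (e.e₂.symm (e.e₂ (D.j₂ n))) = h n
      rw [LinearEquiv.symm_apply_apply, hh']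
    · have := huniq (F ∘ₗ (e.e₂ : N'.N₂ →ₗ[𝔹'.B₂] N''.N₂)) (fun n => hF n)
      rw [← this]
      ext x
      change F x = F (e.e₂ (e.e₂.symm x))
      rw [LinearEquiv.apply_symm_apply]

/-- Transport of base change data along an isomorphism of the source. -/
noncomputable def transSource (D : BaseChangeData Ψ N N') {M : GluedModule 𝔹}
    (e : Iso M N) : BaseChangeData Ψ M N' where
  j₁ := D.j₁.comp (e.e₁ : M.N₁ →+ N.N₁)
  j₂ := D.j₂.comp (e.e₂ : M.N₂ →+ N.N₂)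
  j₁₂ := D.j₁₂.comp (e.e₁₂ : M.N₁₂ →+ N.N₁₂)
  j₁_smul := fun b n => by
    change D.j₁ (e.e₁ (b • n)) = Ψ.ψ₁ b • D.j₁ (e.e₁ n)
    rw [map_smul, D.j₁_smul]
  j₂_smul := fun b n => by
    change D.j₂ (e.e₂ (b • n)) = Ψ.ψ₂ b • D.j₂ (e.e₂ n)
    rw [map_smul, D.j₂_smul]
  j₁₂_smul := fun b n => by
    change D.j₁₂ (e.e₁₂ (b • n)) = Ψ.ψ₁₂ b • D.j₁₂ (e.e₁₂ n)
    rw [map_smul, D.j₁₂_smul]
  comm₁ := fun n => by
    change D.j₁₂ (e.e₁₂ (M.ι₁ n)) = N'.ι₁ (D.j₁ (e.e₁ n))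
    rw [e.comm₁, D.comm₁]
  comm₂ := fun n => by
    change D.j₁₂ (e.e₁₂ (M.ι₂ n)) = N'.ι₂ (D.j₂ (e.e₂ n))
    rw [e.comm₂, D.comm₂]
  univ₁ := fun Q _ _ h hh => by
    obtain ⟨h', hh', huniq⟩ := D.univ₁ Q (h.comp (e.e₁.symm : N.N₁ →+ M.N₁))
      (fun b n => by
        change h (e.e₁.symm (b • n)) = Ψ.ψ₁ b • h (e.e₁.symm n)
        rw [map_smul, hh])
    refine ⟨h', fun n => ?_, fun F hF => huniq F fun n => ?_⟩
    · change h' (D.j₁ (e.e₁ n)) = h n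
      rw [hh']
      change h (e.e₁.symm (e.e₁ n)) = h n
      rw [LinearEquiv.symm_apply_apply]
    · have := hF (e.e₁.symm n)
      change F (D.j₁ (e.e₁ (e.e₁.symm n))) = h (e.e₁.symm n) at this
      rwa [LinearEquiv.apply_symm_apply] at this
  univ₂ := fun Q _ _ h hh => by
    obtain ⟨h', hh', huniq⟩ := D.univ₂ Q (h.comp (e.e₂.symm : N.N₂ →+ M.N₂))
      (fun b n => by
        change h (e.e₂.symm (b • n)) = Ψ.ψ₂ b • h (e.e₂.symm n)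
        rw [map_smul, hh])
    refine ⟨h', fun n => ?_, fun F hF => huniq F fun n => ?_⟩
    · change h' (D.j₂ (e.e₂ n)) = h n
      rw [hh']
      change h (e.e₂.symm (e.e₂ n)) = h n
      rw [LinearEquiv.symm_apply_apply]
    · have := hF (e.e₂.symm n)
      change F (D.j₂ (e.e₂ (e.e₂.symm n))) = h (e.e₂.symm n) at this
      rwa [LinearEquiv.apply_symm_apply] at this

end BaseChangeData

/-- `N'` is a base change of `N` iff it is isomorphic to the concrete base change. -/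
theorem isBC_iff_nonempty_iso : IsBC Ψ N N' ↔ Nonempty (Iso (N.baseChange Ψ) N') :=
  ⟨fun ⟨D⟩ => ⟨D.iso⟩, fun ⟨e⟩ => ⟨(baseChangeData Ψ N).transTarget e⟩⟩

/-- Base changes are unique up to isomorphism. -/
theorem IsBC.nonempty_iso {N'' : GluedModule 𝔹'} (h' : IsBC Ψ N N') (h'' : IsBC Ψ N N'') :
    Nonempty (Iso N' N'') := by
  obtain ⟨D'⟩ := h'
  obtain ⟨D''⟩ := h''
  exact ⟨D'.iso.symm.trans D''.iso⟩

/-- Being a base change is invariant under isomorphisms on both sides. -/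
theorem IsBC.of_iso {M : GluedModule 𝔹} {M' : GluedModule 𝔹'} (h : IsBC Ψ N N')
    (e : Nonempty (Iso N M)) (e' : Nonempty (Iso N' M')) : IsBC Ψ M M' := by
  obtain ⟨D⟩ := h
  obtain ⟨e⟩ := e
  obtain ⟨e'⟩ := e'
  exact ⟨(D.transTarget e').transSource e.symm⟩

/-- Line bundles are stable under base change (relational form). -/
theorem IsBC.isLineBundle (h : IsBC Ψ N N') (hN : N.IsLineBundle) : N'.IsLineBundle := by
  obtain ⟨D⟩ := h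
  have hb := baseChange_isLineBundle Ψ hN
  have := hb.inv₁
  have := hb.inv₂
  exact ⟨Module.Invertible.congr D.iso.e₁, Module.Invertible.congr D.iso.e₂⟩

/-- The base change of the structure sheaf is the structure sheaf (relational form). -/
theorem isBC_unit' (Ψ : TwoChart.Hom φ 𝔹 𝔹') : IsBC Ψ (unit 𝔹) (unit 𝔹') :=
  isBC_iff_nonempty_iso.mpr ⟨baseChangeUnit Ψ⟩

/-- Base change commutes with twists (relational form). -/
theorem IsBC.twist (h : IsBC Ψ N N') (n : ℤ) : IsBC Ψ (N.twist n) (N'.twist n) := by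
  obtain ⟨D⟩ := h
  exact isBC_iff_nonempty_iso.mpr ⟨(baseChangeTwist Ψ N n).trans (D.iso.twist n)⟩

end bridge

section idComp

variable {R : Type u} [CommRing R] {𝔹 : TwoChart R}

/-- Base change data along a chart morphism all of whose components are identities. -/
def BaseChangeData.refl {φ : R →+* R} (Ψ : TwoChart.Hom φ 𝔹 𝔹) (h₁ : ∀ b, Ψ.ψ₁ b = b)
    (h₂ : ∀ b, Ψ.ψ₂ b = b) (h₁₂ : ∀ b, Ψ.ψ₁₂ b = b) (N : GluedModule 𝔹) :
    BaseChangeData Ψ N N where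
  j₁ := AddMonoidHom.id _
  j₂ := AddMonoidHom.id _
  j₁₂ := AddMonoidHom.id _
  j₁_smul := fun b n => by rw [h₁]; rfl
  j₂_smul := fun b n => by rw [h₂]; rfl
  j₁₂_smul := fun b n => by rw [h₁₂]; rfl
  comm₁ := fun _ => rfl
  comm₂ := fun _ => rfl
  univ₁ := fun Q _ _ h hh =>
    ⟨{ toFun := h, map_add' := h.map_add, map_smul' := fun b n => by
        have := hh b n
        rw [h₁] at this
        exact this }, fun _ => rfl, fun F hF => LinearMap.ext fun n => hF n⟩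
  univ₂ := fun Q _ _ h hh =>
    ⟨{ toFun := h, map_add' := h.map_add, map_smul' := fun b n => by
        have := hh b n
        rw [h₂] at this
        exact this }, fun _ => rfl, fun F hF => LinearMap.ext fun n => hF n⟩

/-- Along an identity chart morphism, base change = isomorphism. -/
theorem isBC_iff_nonempty_iso_of_id {φ : R →+* R} (Ψ : TwoChart.Hom φ 𝔹 𝔹)
    (h₁ : ∀ b, Ψ.ψ₁ b = b) (h₂ : ∀ b, Ψ.ψ₂ b = b) (h₁₂ : ∀ b, Ψ.ψ₁₂ b = b)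
    {N N' : GluedModule 𝔹} : IsBC Ψ N N' ↔ Nonempty (Iso N N') :=
  ⟨fun h => IsBC.nonempty_iso ⟨BaseChangeData.refl Ψ h₁ h₂ h₁₂ N⟩ h,
    fun ⟨e⟩ => ⟨(BaseChangeData.refl Ψ h₁ h₂ h₁₂ N).transTarget e⟩⟩

variable {R' R'' : Type u} [CommRing R'] [CommRing R''] {𝔹' : TwoChart R'} {𝔹'' : TwoChart R''}
  {φ : R →+* R'} {φ' : R' →+* R''} {φ'' : R →+* R''}

/-- Auxiliary: the universal property of a composite of two base changes (one chart). -/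
theorem BaseChangeData.univ_comp_aux {B B' B'' : Type u} [CommRing B] [CommRing B']
    [CommRing B''] (ψ : B →+* B') (ψ' : B' →+* B'') (ψ'' : B →+* B'')
    (hψ : ∀ b, ψ'' b = ψ' (ψ b))
    {M M' M'' : Type u} [AddCommGroup M] [AddCommGroup M'] [AddCommGroup M'']
    [Module B M] [Module B' M'] [Module B'' M''] (j : M →+ M') (j' : M' →+ M'')
    (j'_smul : ∀ (b : B') (n : M'), j' (b • n) = ψ' b • j' n)
    (univ : ∀ (Q : Type u) [AddCommGroup Q] [Module B' Q] (h : M →+ Q),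
      (∀ (b : B) (n : M), h (b • n) = ψ b • h n) → ∃! h' : M' →ₗ[B'] Q, ∀ n, h' (j n) = h n)
    (univ' : ∀ (Q : Type u) [AddCommGroup Q] [Module B'' Q] (h : M' →+ Q),
      (∀ (b : B') (n : M'), h (b • n) = ψ' b • h n) →
        ∃! h' : M'' →ₗ[B''] Q, ∀ n, h' (j' n) = h n)
    (Q : Type u) [AddCommGroup Q] [Module B'' Q] (h : M →+ Q)
    (hh : ∀ (b : B) (n : M), h (b • n) = ψ'' b • h n) :
    ∃! h' : M'' →ₗ[B''] Q, ∀ n, h' (j' (j n)) = h n := by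
  let inst : Module B' Q := Module.compHom Q ψ'
  have hsm : ∀ (b : B') (q : Q), b • q = ψ' b • q := fun _ _ => rfl
  obtain ⟨h₁, hh₁, huniq₁⟩ := univ Q h (fun b n => by rw [hh, hψ, hsm])
  obtain ⟨h₂, hh₂, huniq₂⟩ := univ' Q (h₁ : M' →+ Q) (fun b n => by
    change h₁ (b • n) = ψ' b • h₁ n
    rw [map_smul, hsm])
  refine ⟨h₂, fun n => ?_, fun F hF => ?_⟩
  · rw [hh₂]
    exact hh₁ n
  · apply huniq₂
    intro n'
    have key : ({ toFun := fun x => F (j' x)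
                  map_add' := fun x y => by rw [map_add, map_add]
                  map_smul' := fun b x => by
                    change F (j' (b • x)) = b • F (j' x)
                    rw [j'_smul, map_smul, hsm] } : M' →ₗ[B'] Q) = h₁ :=
      huniq₁ _ (fun n => hF n)
    exact LinearMap.congr_fun key n'

/-- Base change data compose. -/
def BaseChangeData.comp {Ψ : TwoChart.Hom φ 𝔹 𝔹'} {Ψ' : TwoChart.Hom φ' 𝔹' 𝔹''}
    (Ψ'' : TwoChart.Hom φ'' 𝔹 𝔹'') (h₁ : ∀ b, Ψ''.ψ₁ b = Ψ'.ψ₁ (Ψ.ψ₁ b))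
    (h₂ : ∀ b, Ψ''.ψ₂ b = Ψ'.ψ₂ (Ψ.ψ₂ b)) (h₁₂ : ∀ b, Ψ''.ψ₁₂ b = Ψ'.ψ₁₂ (Ψ.ψ₁₂ b))
    {N : GluedModule 𝔹} {N' : GluedModule 𝔹'} {N'' : GluedModule 𝔹''}
    (D : BaseChangeData Ψ N N') (D' : BaseChangeData Ψ' N' N'') : BaseChangeData Ψ'' N N'' where
  j₁ := D'.j₁.comp D.j₁
  j₂ := D'.j₂.comp D.j₂
  j₁₂ := D'.j₁₂.comp D.j₁₂
  j₁_smul := fun b n => by
    change D'.j₁ (D.j₁ (b • n)) = Ψ''.ψ₁ b • D'.j₁ (D.j₁ n)
    rw [D.j₁_smul, D'.j₁_smul, h₁]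
  j₂_smul := fun b n => by
    change D'.j₂ (D.j₂ (b • n)) = Ψ''.ψ₂ b • D'.j₂ (D.j₂ n)
    rw [D.j₂_smul, D'.j₂_smul, h₂]
  j₁₂_smul := fun b n => by
    change D'.j₁₂ (D.j₁₂ (b • n)) = Ψ''.ψ₁₂ b • D'.j₁₂ (D.j₁₂ n)
    rw [D.j₁₂_smul, D'.j₁₂_smul, h₁₂]
  comm₁ := fun n => by
    change D'.j₁₂ (D.j₁₂ (N.ι₁ n)) = N''.ι₁ (D'.j₁ (D.j₁ n))
    rw [D.comm₁, D'.comm₁]
  comm₂ := fun n => by
    change D'.j₁₂ (D.j₁₂ (N.ι₂ n)) = N''.ι₂ (D'.j₂ (D.j₂ n))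
    rw [D.comm₂, D'.comm₂]
  univ₁ := fun Q _ _ h hh =>
    BaseChangeData.univ_comp_aux Ψ.ψ₁ Ψ'.ψ₁ Ψ''.ψ₁ h₁ D.j₁ D'.j₁ D'.j₁_smul D.univ₁ D'.univ₁ Q h hh
  univ₂ := fun Q _ _ h hh =>
    BaseChangeData.univ_comp_aux Ψ.ψ₂ Ψ'.ψ₂ Ψ''.ψ₂ h₂ D.j₂ D'.j₂ D'.j₂_smul D.univ₂ D'.univ₂ Q h hh

/-- Base change composes (relational form). -/
theorem IsBC.comp {Ψ : TwoChart.Hom φ 𝔹 𝔹'} {Ψ' : TwoChart.Hom φ' 𝔹' 𝔹''}
    (Ψ'' : TwoChart.Hom φ'' 𝔹 𝔹'') (h₁ : ∀ b, Ψ''.ψ₁ b = Ψ'.ψ₁ (Ψ.ψ₁ b))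
    (h₂ : ∀ b, Ψ''.ψ₂ b = Ψ'.ψ₂ (Ψ.ψ₂ b)) (h₁₂ : ∀ b, Ψ''.ψ₁₂ b = Ψ'.ψ₁₂ (Ψ.ψ₁₂ b))
    {N : GluedModule 𝔹} {N' : GluedModule 𝔹'} {N'' : GluedModule 𝔹''}
    (h : IsBC Ψ N N') (h' : IsBC Ψ' N' N'') : IsBC Ψ'' N N'' := by
  obtain ⟨D⟩ := h
  obtain ⟨D'⟩ := h'
  exact ⟨BaseChangeData.comp Ψ'' h₁ h₂ h₁₂ D D'⟩

end idComp

end GluedModule

end Fermat.Agent.S25
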