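/-
S25 LIB (helper1370): complements to `Lib/Exact.lean` (short exact sequences of glued modules and
the six-term sequence).

Builds on the frozen `Core.lean`, `A1/Basic.lean`, `Defs.lean` and the published `Lib/Exact.lean`.

Contents (namespace `Fermat.Agent.S25.GluedModule`):
* elementary lemmas on the units `r₁ f`, `r₂ g` acting on `N₁₂`;
* single-map localisation lemmas `Hom.φ₁₂_injective_of_φ₁/φ₂`, `Hom.φ₁₂_surjective_of_φ₁/φ₂`,
  `Hom.φ₁₂_exact_of_φ₁/φ₂`;
* consequences of the six-term sequence: `ShortExact.H0_surjective`, `H0_bijective`,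
  `H1_subsingleton`, `H1_subsingleton_mid`, `H1_bijective`, `H1_injective_of_H0_surjective`,
  `H1_injective`, `δ_surjective`, `δ_injective`;
* `ShortExact.δ_natural` : naturality of the connecting homomorphism;
* two-out-of-three finiteness over a noetherian base: `finite_H0_left/mid/right`,
  `finite_H1_left/mid/right`;
* over a field: `ShortExact.finrank_alternating`, `ShortExact.finrank_sub_finrank`,
  `ShortExact.chi_add` (additivity of the Euler characteristic `chi = dim H⁰ - dim H¹` of `Defs`),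
  `Iso.chi_eq`, `chi_of_subsingleton_H1`.
-/
import Fermat.Agent.S25.Defs
import Fermat.Agent.S25.Lib.Exact

set_option autoImplicit false

universe u

namespace Fermat.Agent.S25

namespace GluedModule

variable {R : Type u} [CommRing R] {𝔹 : TwoChart R}

section units

variable (N : GluedModule 𝔹)

theorem r₁f_pow_smul_r₂g_pow_smul (m : ℕ) (y : N.N₁₂) :
    𝔹.r₁ 𝔹.f ^ m • 𝔹.r₂ 𝔹.g ^ m • y = y := by
  rw [← mul_smul, ← mul_pow, 𝔹.fg, one_pow, one_smul]

theorem r₂g_pow_smul_r₁f_pow_smul (m : ℕ) (y : N.N₁₂) :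
    𝔹.r₂ 𝔹.g ^ m • 𝔹.r₁ 𝔹.f ^ m • y = y := by
  rw [← mul_smul, ← mul_pow, 𝔹.gf, one_pow, one_smul]

theorem ι₁_pow_smul (m : ℕ) (n : N.N₁) : N.ι₁ (𝔹.f ^ m • n) = 𝔹.r₁ 𝔹.f ^ m • N.ι₁ n := by
  rw [N.ι₁_smul, map_pow]

theorem ι₂_pow_smul (m : ℕ) (n : N.N₂) : N.ι₂ (𝔹.g ^ m • n) = 𝔹.r₂ 𝔹.g ^ m • N.ι₂ n := by
  rw [N.ι₂_smul, map_pow]

theorem eq_zero_of_r₁f_pow_smul {m : ℕ} {y : N.N₁₂} (h : 𝔹.r₁ 𝔹.f ^ m • y = 0) : y = 0 := by
  rw [← N.r₂g_pow_smul_r₁f_pow_smul m y, h, smul_zero]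

theorem eq_zero_of_r₂g_pow_smul {m : ℕ} {y : N.N₁₂} (h : 𝔹.r₂ 𝔹.g ^ m • y = 0) : y = 0 := by
  rw [← N.r₁f_pow_smul_r₂g_pow_smul m y, h, smul_zero]

end units

namespace Hom

variable {N' N N'' : GluedModule 𝔹}

/-! ### Localising exactness from a chart to the overlap -/

theorem φ₁₂_injective_of_φ₁ (φ : Hom N' N) (h : Function.Injective φ.φ₁) :
    Function.Injective φ.φ₁₂ := by
  rw [injective_iff_map_eq_zero]
  intro y hy
  obtain ⟨n, m, rfl⟩ := N'.surj₁ y
  rw [map_smul, φ.comm₁] at hy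
  have h0 : N.ι₁ (φ.φ₁ n) = 0 := N.eq_zero_of_r₂g_pow_smul hy
  obtain ⟨j, hj⟩ := N.ker₁ _ h0
  rw [← map_smul] at hj
  have h1 : 𝔹.f ^ j • n = 0 := h (hj.trans (map_zero _).symm)
  have h2 : 𝔹.r₁ 𝔹.f ^ j • N'.ι₁ n = 0 := by rw [← N'.ι₁_pow_smul, h1, map_zero]
  rw [N'.eq_zero_of_r₁f_pow_smul h2, smul_zero]

theorem φ₁₂_injective_of_φ₂ (φ : Hom N' N) (h : Function.Injective φ.φ₂) :
    Function.Injective φ.φ₁₂ := by
  rw [injective_iff_map_eq_zero]
  intro y hy
  obtain ⟨n, m, rfl⟩ := N'.surj₂ y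
  rw [map_smul, φ.comm₂] at hy
  have h0 : N.ι₂ (φ.φ₂ n) = 0 := N.eq_zero_of_r₁f_pow_smul hy
  obtain ⟨j, hj⟩ := N.ker₂ _ h0
  rw [← map_smul] at hj
  have h1 : 𝔹.g ^ j • n = 0 := h (hj.trans (map_zero _).symm)
  have h2 : 𝔹.r₂ 𝔹.g ^ j • N'.ι₂ n = 0 := by rw [← N'.ι₂_pow_smul, h1, map_zero]
  rw [N'.eq_zero_of_r₂g_pow_smul h2, smul_zero]

theorem φ₁₂_surjective_of_φ₁ (ψ : Hom N N'') (h : Function.Surjective ψ.φ₁) :
    Function.Surjective ψ.φ₁₂ := by
  intro y
  obtain ⟨n'', m, rfl⟩ := N''.surj₁ y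
  obtain ⟨n, rfl⟩ := h n''
  exact ⟨𝔹.r₂ 𝔹.g ^ m • N.ι₁ n, by rw [map_smul, ψ.comm₁]⟩

theorem φ₁₂_surjective_of_φ₂ (ψ : Hom N N'') (h : Function.Surjective ψ.φ₂) :
    Function.Surjective ψ.φ₁₂ := by
  intro y
  obtain ⟨n'', m, rfl⟩ := N''.surj₂ y
  obtain ⟨n, rfl⟩ := h n''
  exact ⟨𝔹.r₁ 𝔹.f ^ m • N.ι₂ n, by rw [map_smul, ψ.comm₂]⟩

theorem φ₁₂_exact_of_φ₁ (φ : Hom N' N) (ψ : Hom N N'') (h : Function.Exact φ.φ₁ ψ.φ₁) :
    Function.Exact φ.φ₁₂ ψ.φ₁₂ := by
  intro y
  constructor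
  · intro hy
    obtain ⟨n, m, rfl⟩ := N.surj₁ y
    rw [map_smul, ψ.comm₁] at hy
    have h0 : N''.ι₁ (ψ.φ₁ n) = 0 := N''.eq_zero_of_r₂g_pow_smul hy
    obtain ⟨j, hj⟩ := N''.ker₁ _ h0
    rw [← map_smul] at hj
    obtain ⟨n', hn'⟩ := (h _).mp hj
    refine ⟨𝔹.r₂ 𝔹.g ^ (m + j) • N'.ι₁ n', ?_⟩
    rw [map_smul, φ.comm₁, hn', N.ι₁_pow_smul, pow_add, mul_smul, N.r₂g_pow_smul_r₁f_pow_smul]
  · rintro ⟨y', rfl⟩
    obtain ⟨n', m, rfl⟩ := N'.surj₁ y'
    rw [map_smul, map_smul, φ.comm₁, ψ.comm₁, h.apply_apply_eq_zero, map_zero, smul_zero]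

theorem φ₁₂_exact_of_φ₂ (φ : Hom N' N) (ψ : Hom N N'') (h : Function.Exact φ.φ₂ ψ.φ₂) :
    Function.Exact φ.φ₁₂ ψ.φ₁₂ := by
  intro y
  constructor
  · intro hy
    obtain ⟨n, m, rfl⟩ := N.surj₂ y
    rw [map_smul, ψ.comm₂] at hy
    have h0 : N''.ι₂ (ψ.φ₂ n) = 0 := N''.eq_zero_of_r₁f_pow_smul hy
    obtain ⟨j, hj⟩ := N''.ker₂ _ h0
    rw [← map_smul] at hj
    obtain ⟨n', hn'⟩ := (h _).mp hj
    refine ⟨𝔹.r₁ 𝔹.f ^ (m + j) • N'.ι₂ n', ?_⟩
    rw [map_smul, φ.comm₂, hn', N.ι₂_pow_smul, pow_add, mul_smul, N.r₁f_pow_smul_r₂g_pow_smul]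
  · rintro ⟨y', rfl⟩
    obtain ⟨n', m, rfl⟩ := N'.surj₂ y'
    rw [map_smul, map_smul, φ.comm₂, ψ.comm₂, h.apply_apply_eq_zero, map_zero, smul_zero]

theorem c1_d_apply (φ : Hom N N') (x : N.N₁ × N.N₂) : φ.φ₁₂ (N.d x) = N'.d (φ.c0 x) :=
  φ.d_comm x

theorem H0_coe (φ : Hom N N') (x : N.H0) : ((φ.H0 x : N'.N₁ × N'.N₂)) = φ.c0 x := rfl

end Hom

namespace ShortExact

variable {N' N N'' : GluedModule 𝔹} {φ : Hom N' N} {ψ : Hom N N''}

/-! ### Immediate consequences of the six-term sequence -/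

/-- If `H¹(N') = 0` then `H⁰(N) → H⁰(N'')` is surjective. -/
theorem H0_surjective (h : ShortExact φ ψ) [Subsingleton N'.H1] : Function.Surjective ψ.H0 := by
  intro x
  exact (h.exact_H0_δ x).mp (Subsingleton.elim _ _)

/-- If `H⁰(N'') = 0` then `H⁰(N') → H⁰(N)` is bijective. -/
theorem H0_bijective (h : ShortExact φ ψ) [Subsingleton N''.H0] : Function.Bijective φ.H0 :=
  ⟨h.H0_injective, fun x => (h.H0_exact x).mp (Subsingleton.elim _ _)⟩

/-- If `H¹(N) = 0` then `H¹(N'') = 0`. -/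
theorem H1_subsingleton (h : ShortExact φ ψ) [Subsingleton N.H1] : Subsingleton N''.H1 :=
  h.H1_surjective.subsingleton

/-- If `H¹(N') = 0` and `H¹(N'') = 0` then `H¹(N) = 0`. -/
theorem H1_subsingleton_mid (h : ShortExact φ ψ) [Subsingleton N'.H1] [Subsingleton N''.H1] :
    Subsingleton N.H1 := by
  refine ⟨fun x y => ?_⟩
  obtain ⟨x', rfl⟩ := (h.H1_exact x).mp (Subsingleton.elim _ _)
  obtain ⟨y', rfl⟩ := (h.H1_exact y).mp (Subsingleton.elim _ _)
  rw [Subsingleton.elim x' y']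

/-- If `H¹(N') = 0` then `H¹(N) → H¹(N'')` is bijective. -/
theorem H1_bijective (h : ShortExact φ ψ) [Subsingleton N'.H1] : Function.Bijective ψ.H1 := by
  refine ⟨?_, h.H1_surjective⟩
  rw [injective_iff_map_eq_zero]
  intro x hx
  obtain ⟨x', rfl⟩ := (h.H1_exact x).mp hx
  rw [Subsingleton.elim x' 0, map_zero]

/-- If `H⁰(N) → H⁰(N'')` is surjective then `H¹(N') → H¹(N)` is injective. -/
theorem H1_injective_of_H0_surjective (h : ShortExact φ ψ) (hs : Function.Surjective ψ.H0) :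
    Function.Injective φ.H1 := by
  rw [injective_iff_map_eq_zero]
  intro x hx
  obtain ⟨y, rfl⟩ := (h.exact_δ_H1 x).mp hx
  obtain ⟨z, rfl⟩ := hs y
  exact h.exact_H0_δ.apply_apply_eq_zero z

/-- If `H⁰(N'') = 0` then `H¹(N') → H¹(N)` is injective. -/
theorem H1_injective (h : ShortExact φ ψ) [Subsingleton N''.H0] : Function.Injective φ.H1 :=
  h.H1_injective_of_H0_surjective (fun _ => ⟨0, Subsingleton.elim _ _⟩)

/-- If `H¹(N) = 0` then the connecting map `H⁰(N'') → H¹(N')` is surjective. -/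
theorem δ_surjective (h : ShortExact φ ψ) [Subsingleton N.H1] : Function.Surjective h.δ := by
  intro x
  exact (h.exact_δ_H1 x).mp (Subsingleton.elim _ _)

/-- If `H⁰(N) = 0` then the connecting map `H⁰(N'') → H¹(N')` is injective. -/
theorem δ_injective (h : ShortExact φ ψ) [Subsingleton N.H0] : Function.Injective h.δ := by
  rw [injective_iff_map_eq_zero]
  intro x hx
  obtain ⟨y, rfl⟩ := (h.exact_H0_δ x).mp hx
  rw [Subsingleton.elim y 0, map_zero]

/-! ### Naturality of the connecting homomorphism -/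

/-- The connecting homomorphism is natural with respect to morphisms of short exact sequences. -/
theorem δ_natural {M' M M'' : GluedModule 𝔹} {φ₂ : Hom M' M} {ψ₂ : Hom M M''}
    (h : ShortExact φ ψ) (h₂ : ShortExact φ₂ ψ₂)
    (α' : Hom N' M') (α : Hom N M) (α'' : Hom N'' M'')
    (hφ : α.comp φ = φ₂.comp α') (hψ : α''.comp ψ = ψ₂.comp α) (x : N''.H0) :
    α'.H1 (h.δ x) = h₂.δ (α''.H0 x) := by
  obtain ⟨y, hy⟩ := h.c0_surjective (x : N''.N₁ × N''.N₂)
  have hz0 : ψ.φ₁₂ (N.d y) = 0 := by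
    rw [Hom.c1_d_apply, hy]
    exact x.2
  obtain ⟨z, hz⟩ := (h.exact₁₂ _).mp hz0
  rw [h.δ_eq x y hy z hz, Hom.H1_mk]
  symm
  refine h₂.δ_eq (α''.H0 x) (α.c0 y) ?_ (α'.φ₁₂ z) ?_
  · rw [Hom.H0_coe, ← hy]
    have e₁ := congrArg Hom.φ₁ hψ
    have e₂ := congrArg Hom.φ₂ hψ
    exact Prod.ext (LinearMap.congr_fun e₁ y.1).symm (LinearMap.congr_fun e₂ y.2).symm
  · have e₁₂ := congrArg Hom.φ₁₂ hφ
    have := LinearMap.congr_fun e₁₂ z
    change α.φ₁₂ (φ.φ₁₂ z) = φ₂.φ₁₂ (α'.φ₁₂ z) at this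
    rw [← this, hz, Hom.c1_d_apply]

/-! ### Finiteness (two out of three) -/

section finite

private theorem finite_of_exact_aux {A B C : Type*} [AddCommGroup A] [AddCommGroup B]
    [AddCommGroup C] [Module R A] [Module R B] [Module R C] [IsNoetherianRing R]
    {f : A →ₗ[R] B} {g : B →ₗ[R] C} (hfg : Function.Exact f g) [Module.Finite R A]
    [Module.Finite R C] : Module.Finite R B := by
  have hex : Function.Exact f g.rangeRestrict := by
    intro b
    rw [← hfg b]
    constructor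
    · intro hb
      exact congrArg Subtype.val hb
    · intro hb
      exact Subtype.ext hb
  exact Module.Finite.of_exact hex g.surjective_rangeRestrict

variable [IsNoetherianRing R]

theorem finite_H0_left (h : ShortExact φ ψ) [Module.Finite R N.H0] : Module.Finite R N'.H0 :=
  Module.Finite.of_injective φ.H0 h.H0_injective

theorem finite_H0_mid (h : ShortExact φ ψ) [Module.Finite R N'.H0] [Module.Finite R N''.H0] :
    Module.Finite R N.H0 :=
  finite_of_exact_aux h.H0_exact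

theorem finite_H0_right (h : ShortExact φ ψ) [Module.Finite R N.H0] [Module.Finite R N'.H1] :
    Module.Finite R N''.H0 :=
  finite_of_exact_aux h.exact_H0_δ

theorem finite_H1_left (h : ShortExact φ ψ) [Module.Finite R N''.H0] [Module.Finite R N.H1] :
    Module.Finite R N'.H1 :=
  finite_of_exact_aux h.exact_δ_H1

theorem finite_H1_mid (h : ShortExact φ ψ) [Module.Finite R N'.H1] [Module.Finite R N''.H1] :
    Module.Finite R N.H1 :=
  finite_of_exact_aux h.H1_exact

omit [IsNoetherianRing R] in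
theorem finite_H1_right (h : ShortExact φ ψ) [Module.Finite R N.H1] : Module.Finite R N''.H1 :=
  Module.Finite.of_surjective ψ.H1 h.H1_surjective

end finite

end ShortExact

/-! ### Euler characteristics over a field -/

section field

variable {κ : Type u} [Field κ] {𝔹 : TwoChart κ} {N' N N'' : GluedModule 𝔹}
  {φ : Hom N' N} {ψ : Hom N N''}

/-- Additivity of the Euler characteristic `dim H⁰ - dim H¹` in short exact sequences
(alternating sum form). -/
theorem ShortExact.finrank_alternating (h : ShortExact φ ψ)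
    [Module.Finite κ N'.H0] [Module.Finite κ N.H0] [Module.Finite κ N''.H0]
    [Module.Finite κ N'.H1] [Module.Finite κ N.H1] [Module.Finite κ N''.H1] :
    (Module.finrank κ N'.H0 : ℤ) - Module.finrank κ N.H0 + Module.finrank κ N''.H0
      - Module.finrank κ N'.H1 + Module.finrank κ N.H1 - Module.finrank κ N''.H1 = 0 :=
  Module.sum_neg_one_pow_finrank_eq_zero_of_exact_six φ.H0 ψ.H0 h.δ φ.H1 ψ.H1
    h.H0_injective h.H0_exact h.exact_H0_δ h.exact_δ_H1 h.H1_exact h.H1_surjective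

/-- Additivity of the Euler characteristic `dim H⁰ - dim H¹` in short exact sequences. -/
theorem ShortExact.finrank_sub_finrank (h : ShortExact φ ψ)
    [Module.Finite κ N'.H0] [Module.Finite κ N.H0] [Module.Finite κ N''.H0]
    [Module.Finite κ N'.H1] [Module.Finite κ N.H1] [Module.Finite κ N''.H1] :
    (Module.finrank κ N.H0 : ℤ) - Module.finrank κ N.H1 =
      ((Module.finrank κ N'.H0 : ℤ) - Module.finrank κ N'.H1) +
      ((Module.finrank κ N''.H0 : ℤ) - Module.finrank κ N''.H1) := by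
  have := h.finrank_alternating
  omega

/-- Additivity of the Euler characteristic `chi` in short exact sequences. -/
theorem ShortExact.chi_add (h : ShortExact φ ψ)
    [Module.Finite κ N'.H0] [Module.Finite κ N.H0] [Module.Finite κ N''.H0]
    [Module.Finite κ N'.H1] [Module.Finite κ N.H1] [Module.Finite κ N''.H1] :
    chi N = chi N' + chi N'' :=
  h.finrank_sub_finrank

/-- Additivity of the Euler characteristic `chi`, only assuming finiteness of the outer terms
(finiteness of the middle cohomology groups follows). -/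
theorem ShortExact.chi_add' (h : ShortExact φ ψ)
    [Module.Finite κ N'.H0] [Module.Finite κ N''.H0]
    [Module.Finite κ N'.H1] [Module.Finite κ N''.H1] :
    chi N = chi N' + chi N'' := by
  have := h.finite_H0_mid
  have := h.finite_H1_mid
  exact h.chi_add

/-- Isomorphic glued modules have the same Euler characteristic. -/
theorem Iso.chi_eq {M M' : GluedModule 𝔹} (e : Iso M M') : chi M = chi M' := by
  unfold chi
  rw [e.H0.finrank_eq, e.H1.finrank_eq]

/-- If `H¹` vanishes, the Euler characteristic is the dimension of `H⁰`. -/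
theorem chi_of_subsingleton_H1 (M : GluedModule 𝔹) [Subsingleton M.H1] :
    chi M = (Module.finrank κ M.H0 : ℤ) := by
  have h0 : Module.finrank κ M.H1 = 0 := Module.finrank_zero_of_subsingleton
  unfold chi
  rw [h0]
  simp

end field

end GluedModule

end Fermat.Agent.S25

/-! ### Glued modules with finite-dimensional charts (appended) -/

namespace Fermat.Agent.S25

namespace GluedModule

section finiteCharts

variable {κ : Type u} [Field κ] {𝔹 : TwoChart κ} (N : GluedModule 𝔹)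

/-- `H⁰` is finite-dimensional when the charts `1`, `2` are. -/
theorem finite_H0_of_finite [Module.Finite κ N.N₁] [Module.Finite κ N.N₂] :
    Module.Finite κ N.H0 :=
  inferInstanceAs (Module.Finite κ (LinearMap.ker N.d))

/-- `H¹` is finite-dimensional when the overlap chart is. -/
theorem finite_H1_of_finite [Module.Finite κ N.N₁₂] : Module.Finite κ N.H1 :=
  inferInstanceAs (Module.Finite κ (N.N₁₂ ⧸ LinearMap.range N.d))

/-- Euler characteristic of a glued module all of whose charts are finite-dimensional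
(e.g. a torsion quotient): `χ = dim N₁ + dim N₂ - dim N₁₂`. -/
theorem chi_of_finite [Module.Finite κ N.N₁] [Module.Finite κ N.N₂] [Module.Finite κ N.N₁₂] :
    chi N = (Module.finrank κ N.N₁ : ℤ) + Module.finrank κ N.N₂ - Module.finrank κ N.N₁₂ := by
  have h1 := LinearMap.finrank_range_add_finrank_ker N.d
  have h2 := Submodule.finrank_quotient_add_finrank (LinearMap.range N.d)
  have h3 : Module.finrank κ (N.N₁ × N.N₂) = Module.finrank κ N.N₁ + Module.finrank κ N.N₂ :=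
    Module.finrank_prod
  have h4 : Module.finrank κ N.H0 = Module.finrank κ (LinearMap.ker N.d) := rfl
  have h5 : Module.finrank κ N.H1 = Module.finrank κ (N.N₁₂ ⧸ LinearMap.range N.d) := rfl
  unfold chi
  omega

end finiteCharts

end GluedModule

end Fermat.Agent.S25
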