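/-
S25 LIB (helper1370): glued submodules, quotients, kernels, images, cokernels.

Builds on the frozen `Core.lean`, `A1/Basic.lean` and the published `Lib/Exact.lean`,
`Lib/ExactMore.lean`.

Contents (namespace `Fermat.Agent.S25.GluedModule`):
* `Sub N` : a glued submodule of `N` (submodules on the three charts, compatible with `ι₁`, `ι₂`,
  and generated on the overlap by either chart);
* `Sub.toGlued`, `Sub.quot` : the sub- and quotient glued modules, with `Sub.incl`, `Sub.proj` and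
  `Sub.shortExact : ShortExact S.incl S.proj`;
* `Sub.ofSubmodules` : a glued submodule from submodules on the charts `1`, `2` generating the same
  submodule on the overlap (ideal data are the case `N = unit 𝔹`);
* `Hom.kerSub`, `Hom.rangeSub`, `Hom.ker`, `Hom.image`, `Hom.coker`, `Hom.toImage`, `Hom.cokerπ`,
  short exact sequences `0 → ker → N → image → 0`, `0 → image → N' → coker → 0`, and
  `0 → N → N' → coker → 0` for a chartwise injective morphism;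
* `Iso.ofBijective` : a morphism bijective on the charts `1`, `2` is an isomorphism
  (moved by the LIB captain to `Lib/HomTools.lean`, imported here).
-/
import Fermat.Agent.S25.Lib.ExactMore
import Fermat.Agent.S25.Lib.HomTools

set_option autoImplicit false

universe u

namespace Fermat.Agent.S25

namespace GluedModule

variable {R : Type u} [CommRing R] {𝔹 : TwoChart R}

/-- A glued submodule of `N`: submodules on the three charts, stable under the restriction maps,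
the one on the overlap being generated (up to inverting `f`, resp. `g`) by either chart. -/
structure Sub (N : GluedModule 𝔹) where
  M₁ : Submodule 𝔹.B₁ N.N₁
  M₂ : Submodule 𝔹.B₂ N.N₂
  M₁₂ : Submodule 𝔹.B₁₂ N.N₁₂
  map₁ : ∀ n ∈ M₁, N.ι₁ n ∈ M₁₂
  map₂ : ∀ n ∈ M₂, N.ι₂ n ∈ M₁₂
  gen₁ : ∀ y ∈ M₁₂, ∃ n ∈ M₁, ∃ m : ℕ, y = 𝔹.r₂ 𝔹.g ^ m • N.ι₁ n
  gen₂ : ∀ y ∈ M₁₂, ∃ n ∈ M₂, ∃ m : ℕ, y = 𝔹.r₁ 𝔹.f ^ m • N.ι₂ n

namespace Sub

variable {N : GluedModule 𝔹} (S : Sub N)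

/-- Membership in the overlap part can be tested after multiplying by a power of `f`. -/
theorem mem_M₁₂_of_r₁f_pow_smul {m : ℕ} {y : N.N₁₂} (h : 𝔹.r₁ 𝔹.f ^ m • y ∈ S.M₁₂) :
    y ∈ S.M₁₂ := by
  rw [← N.r₂g_pow_smul_r₁f_pow_smul m y]
  exact S.M₁₂.smul_mem _ h

theorem mem_M₁₂_of_r₂g_pow_smul {m : ℕ} {y : N.N₁₂} (h : 𝔹.r₂ 𝔹.g ^ m • y ∈ S.M₁₂) :
    y ∈ S.M₁₂ := by
  rw [← N.r₁f_pow_smul_r₂g_pow_smul m y]
  exact S.M₁₂.smul_mem _ h

/-- If `ι₁ n` lies in the overlap part then some `f^m • n` lies in the chart-1 part. -/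
theorem exists_pow_smul_mem₁ (n : N.N₁) (h : N.ι₁ n ∈ S.M₁₂) : ∃ m : ℕ, 𝔹.f ^ m • n ∈ S.M₁ := by
  obtain ⟨n', hn', m, hm⟩ := S.gen₁ _ h
  have h0 : N.ι₁ (𝔹.f ^ m • n - n') = 0 := by
    rw [map_sub, N.ι₁_pow_smul, hm, N.r₁f_pow_smul_r₂g_pow_smul, sub_self]
  obtain ⟨j, hj⟩ := N.ker₁ _ h0
  refine ⟨j + m, ?_⟩
  rw [smul_sub, sub_eq_zero] at hj
  rw [pow_add, mul_smul, hj]
  exact S.M₁.smul_mem _ hn'

theorem exists_pow_smul_mem₂ (n : N.N₂) (h : N.ι₂ n ∈ S.M₁₂) : ∃ m : ℕ, 𝔹.g ^ m • n ∈ S.M₂ := by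
  obtain ⟨n', hn', m, hm⟩ := S.gen₂ _ h
  have h0 : N.ι₂ (𝔹.g ^ m • n - n') = 0 := by
    rw [map_sub, N.ι₂_pow_smul, hm, N.r₂g_pow_smul_r₁f_pow_smul, sub_self]
  obtain ⟨j, hj⟩ := N.ker₂ _ h0
  refine ⟨j + m, ?_⟩
  rw [smul_sub, sub_eq_zero] at hj
  rw [pow_add, mul_smul, hj]
  exact S.M₂.smul_mem _ hn'

/-- The glued module underlying a glued submodule. -/
@[reducible] def toGlued : GluedModule 𝔹 where
  N₁ := S.M₁
  N₂ := S.M₂
  N₁₂ := S.M₁₂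
  ι₁ :=
    { toFun := fun n => ⟨N.ι₁ n, S.map₁ _ n.2⟩
      map_add' := fun x y => Subtype.ext (by simp)
      map_smul' := fun r x => Subtype.ext (by simp) }
  ι₂ :=
    { toFun := fun n => ⟨N.ι₂ n, S.map₂ _ n.2⟩
      map_add' := fun x y => Subtype.ext (by simp)
      map_smul' := fun r x => Subtype.ext (by simp) }
  ι₁_smul b n := Subtype.ext (N.ι₁_smul b n)
  ι₂_smul b n := Subtype.ext (N.ι₂_smul b n)
  surj₁ y := by
    obtain ⟨n, hn, m, hm⟩ := S.gen₁ y y.2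
    exact ⟨⟨n, hn⟩, m, Subtype.ext hm⟩
  ker₁ n h := by
    obtain ⟨m, hm⟩ := N.ker₁ n (congrArg Subtype.val h)
    exact ⟨m, Subtype.ext hm⟩
  surj₂ y := by
    obtain ⟨n, hn, m, hm⟩ := S.gen₂ y y.2
    exact ⟨⟨n, hn⟩, m, Subtype.ext hm⟩
  ker₂ n h := by
    obtain ⟨m, hm⟩ := N.ker₂ n (congrArg Subtype.val h)
    exact ⟨m, Subtype.ext hm⟩

@[simp] theorem toGlued_ι₁_coe (n : S.M₁) : ((S.toGlued.ι₁ n : S.M₁₂) : N.N₁₂) = N.ι₁ n := rfl

@[simp] theorem toGlued_ι₂_coe (n : S.M₂) : ((S.toGlued.ι₂ n : S.M₁₂) : N.N₁₂) = N.ι₂ n := rfl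

/-- The inclusion of a glued submodule. -/
def incl : Hom S.toGlued N where
  φ₁ := S.M₁.subtype
  φ₂ := S.M₂.subtype
  φ₁₂ := S.M₁₂.subtype
  comm₁ _ := rfl
  comm₂ _ := rfl

@[simp] theorem incl_φ₁ (n : S.M₁) : S.incl.φ₁ n = n := rfl
@[simp] theorem incl_φ₂ (n : S.M₂) : S.incl.φ₂ n = n := rfl
@[simp] theorem incl_φ₁₂ (n : S.M₁₂) : S.incl.φ₁₂ n = n := rfl

/-- The restriction map of the quotient on chart 1. -/
def quotι₁ : (N.N₁ ⧸ S.M₁) →ₗ[R] (N.N₁₂ ⧸ S.M₁₂) :=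
  (Submodule.Quotient.restrictScalarsEquiv R S.M₁₂).toLinearMap ∘ₗ
    (Submodule.mapQ (S.M₁.restrictScalars R) (S.M₁₂.restrictScalars R) N.ι₁
      (fun n hn => S.map₁ n hn)) ∘ₗ
    (Submodule.Quotient.restrictScalarsEquiv R S.M₁).symm.toLinearMap

/-- The restriction map of the quotient on chart 2. -/
def quotι₂ : (N.N₂ ⧸ S.M₂) →ₗ[R] (N.N₁₂ ⧸ S.M₁₂) :=
  (Submodule.Quotient.restrictScalarsEquiv R S.M₁₂).toLinearMap ∘ₗ
    (Submodule.mapQ (S.M₂.restrictScalars R) (S.M₁₂.restrictScalars R) N.ι₂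
      (fun n hn => S.map₂ n hn)) ∘ₗ
    (Submodule.Quotient.restrictScalarsEquiv R S.M₂).symm.toLinearMap

@[simp] theorem quotι₁_mk (n : N.N₁) :
    S.quotι₁ (Submodule.Quotient.mk n) = Submodule.Quotient.mk (N.ι₁ n) := rfl

@[simp] theorem quotι₂_mk (n : N.N₂) :
    S.quotι₂ (Submodule.Quotient.mk n) = Submodule.Quotient.mk (N.ι₂ n) := rfl

/-- The quotient of `N` by a glued submodule. -/
@[reducible] def quot : GluedModule 𝔹 where
  N₁ := N.N₁ ⧸ S.M₁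
  N₂ := N.N₂ ⧸ S.M₂
  N₁₂ := N.N₁₂ ⧸ S.M₁₂
  ι₁ := S.quotι₁
  ι₂ := S.quotι₂
  ι₁_smul b n := by
    obtain ⟨n, rfl⟩ := Submodule.Quotient.mk_surjective _ n
    rw [← Submodule.Quotient.mk_smul, quotι₁_mk, quotι₁_mk, N.ι₁_smul, Submodule.Quotient.mk_smul]
  ι₂_smul b n := by
    obtain ⟨n, rfl⟩ := Submodule.Quotient.mk_surjective _ n
    rw [← Submodule.Quotient.mk_smul, quotι₂_mk, quotι₂_mk, N.ι₂_smul, Submodule.Quotient.mk_smul]
  surj₁ y := by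
    obtain ⟨y, rfl⟩ := Submodule.Quotient.mk_surjective _ y
    obtain ⟨n, m, rfl⟩ := N.surj₁ y
    exact ⟨Submodule.Quotient.mk n, m, by rw [quotι₁_mk, Submodule.Quotient.mk_smul]⟩
  ker₁ n h := by
    obtain ⟨n, rfl⟩ := Submodule.Quotient.mk_surjective _ n
    rw [quotι₁_mk, Submodule.Quotient.mk_eq_zero] at h
    obtain ⟨m, hm⟩ := S.exists_pow_smul_mem₁ n h
    exact ⟨m, by rw [← Submodule.Quotient.mk_smul, Submodule.Quotient.mk_eq_zero]; exact hm⟩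
  surj₂ y := by
    obtain ⟨y, rfl⟩ := Submodule.Quotient.mk_surjective _ y
    obtain ⟨n, m, rfl⟩ := N.surj₂ y
    exact ⟨Submodule.Quotient.mk n, m, by rw [quotι₂_mk, Submodule.Quotient.mk_smul]⟩
  ker₂ n h := by
    obtain ⟨n, rfl⟩ := Submodule.Quotient.mk_surjective _ n
    rw [quotι₂_mk, Submodule.Quotient.mk_eq_zero] at h
    obtain ⟨m, hm⟩ := S.exists_pow_smul_mem₂ n h
    exact ⟨m, by rw [← Submodule.Quotient.mk_smul, Submodule.Quotient.mk_eq_zero]; exact hm⟩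

/-- The projection onto the quotient by a glued submodule. -/
def proj : Hom N S.quot where
  φ₁ := S.M₁.mkQ
  φ₂ := S.M₂.mkQ
  φ₁₂ := S.M₁₂.mkQ
  comm₁ _ := rfl
  comm₂ _ := rfl

@[simp] theorem proj_φ₁ (n : N.N₁) : S.proj.φ₁ n = Submodule.Quotient.mk n := rfl
@[simp] theorem proj_φ₂ (n : N.N₂) : S.proj.φ₂ n = Submodule.Quotient.mk n := rfl
@[simp] theorem proj_φ₁₂ (n : N.N₁₂) : S.proj.φ₁₂ n = Submodule.Quotient.mk n := rfl

/-- `0 → S → N → N/S → 0` is short exact. -/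
theorem shortExact : ShortExact S.incl S.proj where
  inj₁ := Subtype.val_injective
  exact₁ := LinearMap.exact_subtype_mkQ S.M₁
  surj₁ := Submodule.mkQ_surjective _
  inj₂ := Subtype.val_injective
  exact₂ := LinearMap.exact_subtype_mkQ S.M₂
  surj₂ := Submodule.mkQ_surjective _

end Sub

/-! ### Glued submodules from chart data; ideal data -/

/-- Elements of the `B₁₂`-span of `ι₁ M₁` are of the form `g^m • ι₁ n` with `n ∈ M₁`. -/
theorem exists_of_mem_span_ι₁ (N : GluedModule 𝔹) (M₁ : Submodule 𝔹.B₁ N.N₁) (y : N.N₁₂)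
    (hy : y ∈ Submodule.span 𝔹.B₁₂ (N.ι₁ '' (M₁ : Set N.N₁))) :
    ∃ n ∈ M₁, ∃ m : ℕ, y = 𝔹.r₂ 𝔹.g ^ m • N.ι₁ n := by
  induction hy using Submodule.span_induction with
  | mem y hy =>
    obtain ⟨n, hn, rfl⟩ := hy
    exact ⟨n, hn, 0, by rw [pow_zero, one_smul]⟩
  | zero => exact ⟨0, M₁.zero_mem, 0, by rw [map_zero, smul_zero]⟩
  | add y y' _ _ hy hy' =>
    obtain ⟨n, hn, m, rfl⟩ := hy
    obtain ⟨n', hn', m', rfl⟩ := hy'
    refine ⟨𝔹.f ^ m' • n + 𝔹.f ^ m • n', M₁.add_mem (M₁.smul_mem _ hn) (M₁.smul_mem _ hn'),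
      m + m', ?_⟩
    rw [map_add, N.ι₁_pow_smul, N.ι₁_pow_smul, smul_add]
    congr 1
    · rw [pow_add, mul_smul, N.r₂g_pow_smul_r₁f_pow_smul]
    · rw [pow_add, mul_comm, mul_smul, N.r₂g_pow_smul_r₁f_pow_smul]
  | smul c y _ hy =>
    obtain ⟨n, hn, m, rfl⟩ := hy
    obtain ⟨a, j, rfl⟩ := 𝔹.surj₁ c
    refine ⟨a • n, M₁.smul_mem _ hn, j + m, ?_⟩
    rw [N.ι₁_smul, ← mul_smul, ← mul_smul, pow_add]
    congr 1
    ring

/-- Elements of the `B₁₂`-span of `ι₂ M₂` are of the form `f^m • ι₂ n` with `n ∈ M₂`. -/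
theorem exists_of_mem_span_ι₂ (N : GluedModule 𝔹) (M₂ : Submodule 𝔹.B₂ N.N₂) (y : N.N₁₂)
    (hy : y ∈ Submodule.span 𝔹.B₁₂ (N.ι₂ '' (M₂ : Set N.N₂))) :
    ∃ n ∈ M₂, ∃ m : ℕ, y = 𝔹.r₁ 𝔹.f ^ m • N.ι₂ n := by
  induction hy using Submodule.span_induction with
  | mem y hy =>
    obtain ⟨n, hn, rfl⟩ := hy
    exact ⟨n, hn, 0, by rw [pow_zero, one_smul]⟩
  | zero => exact ⟨0, M₂.zero_mem, 0, by rw [map_zero, smul_zero]⟩
  | add y y' _ _ hy hy' =>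
    obtain ⟨n, hn, m, rfl⟩ := hy
    obtain ⟨n', hn', m', rfl⟩ := hy'
    refine ⟨𝔹.g ^ m' • n + 𝔹.g ^ m • n', M₂.add_mem (M₂.smul_mem _ hn) (M₂.smul_mem _ hn'),
      m + m', ?_⟩
    rw [map_add, N.ι₂_pow_smul, N.ι₂_pow_smul, smul_add]
    congr 1
    · rw [pow_add, mul_smul, N.r₁f_pow_smul_r₂g_pow_smul]
    · rw [pow_add, mul_comm, mul_smul, N.r₁f_pow_smul_r₂g_pow_smul]
  | smul c y _ hy =>
    obtain ⟨n, hn, m, rfl⟩ := hy
    obtain ⟨a, j, rfl⟩ := 𝔹.surj₂ c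
    refine ⟨a • n, M₂.smul_mem _ hn, j + m, ?_⟩
    rw [N.ι₂_smul, ← mul_smul, ← mul_smul, pow_add]
    congr 1
    ring

/-- A glued submodule from submodules on the charts `1` and `2` which span the same submodule on
the overlap. -/
def Sub.ofSubmodules (N : GluedModule 𝔹) (M₁ : Submodule 𝔹.B₁ N.N₁) (M₂ : Submodule 𝔹.B₂ N.N₂)
    (h : Submodule.span 𝔹.B₁₂ (N.ι₁ '' (M₁ : Set N.N₁)) =
      Submodule.span 𝔹.B₁₂ (N.ι₂ '' (M₂ : Set N.N₂))) : Sub N where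
  M₁ := M₁
  M₂ := M₂
  M₁₂ := Submodule.span 𝔹.B₁₂ (N.ι₁ '' (M₁ : Set N.N₁))
  map₁ n hn := Submodule.subset_span ⟨n, hn, rfl⟩
  map₂ n hn := by
    rw [h]
    exact Submodule.subset_span ⟨n, hn, rfl⟩
  gen₁ y hy := N.exists_of_mem_span_ι₁ M₁ y hy
  gen₂ y hy := by
    rw [h] at hy
    exact N.exists_of_mem_span_ι₂ M₂ y hy

/-- The extension to `B₁₂` of the contraction to `B₂` of an ideal of `B₁₂` is the ideal itself. -/
theorem _root_.Fermat.Agent.S25.TwoChart.map_comap_r₂ (𝔹 : TwoChart R) (J : Ideal 𝔹.B₁₂) :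
    (J.comap 𝔹.r₂).map 𝔹.r₂ = J := by
  apply le_antisymm Ideal.map_comap_le
  intro y hy
  obtain ⟨b, n, rfl⟩ := 𝔹.surj₂ y
  have hb : 𝔹.r₂ b ∈ J := by
    have := J.mul_mem_right (𝔹.r₂ 𝔹.g ^ n) hy
    rwa [mul_assoc, ← mul_pow, 𝔹.fg, one_pow, mul_one] at this
  exact Ideal.mul_mem_right _ _ (Ideal.mem_map_of_mem _ hb)

/-- The extension to `B₁₂` of the contraction to `B₁` of an ideal of `B₁₂` is the ideal itself. -/
theorem _root_.Fermat.Agent.S25.TwoChart.map_comap_r₁ (𝔹 : TwoChart R) (J : Ideal 𝔹.B₁₂) :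
    (J.comap 𝔹.r₁).map 𝔹.r₁ = J := by
  apply le_antisymm Ideal.map_comap_le
  intro y hy
  obtain ⟨b, n, rfl⟩ := 𝔹.surj₁ y
  have hb : 𝔹.r₁ b ∈ J := by
    have := J.mul_mem_right (𝔹.r₁ 𝔹.f ^ n) hy
    rwa [mul_assoc, ← mul_pow, 𝔹.gf, one_pow, mul_one] at this
  exact Ideal.mul_mem_right _ _ (Ideal.mem_map_of_mem _ hb)

/-- Ideal data: ideals `I₁ ⊆ B₁`, `I₂ ⊆ B₂` with `I₁ B₁₂ = I₂ B₁₂`, as a glued submodule of the
unit `O`.  The associated glued module `(Sub.ofIdeals I₁ I₂ h).toGlued` is the ideal sheaf, and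
`(Sub.ofIdeals I₁ I₂ h).quot` is the structure sheaf of the closed subscheme. -/
def Sub.ofIdeals (I₁ : Ideal 𝔹.B₁) (I₂ : Ideal 𝔹.B₂) (h : I₁.map 𝔹.r₁ = I₂.map 𝔹.r₂) :
    Sub (unit 𝔹) :=
  Sub.ofSubmodules (unit 𝔹) I₁ I₂ h

@[simp] theorem Sub.ofIdeals_M₁ (I₁ : Ideal 𝔹.B₁) (I₂ : Ideal 𝔹.B₂)
    (h : I₁.map 𝔹.r₁ = I₂.map 𝔹.r₂) : (Sub.ofIdeals I₁ I₂ h).M₁ = I₁ := rfl

@[simp] theorem Sub.ofIdeals_M₂ (I₁ : Ideal 𝔹.B₁) (I₂ : Ideal 𝔹.B₂)
    (h : I₁.map 𝔹.r₁ = I₂.map 𝔹.r₂) : (Sub.ofIdeals I₁ I₂ h).M₂ = I₂ := rfl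

theorem Sub.ofIdeals_M₁₂ (I₁ : Ideal 𝔹.B₁) (I₂ : Ideal 𝔹.B₂)
    (h : I₁.map 𝔹.r₁ = I₂.map 𝔹.r₂) : (Sub.ofIdeals I₁ I₂ h).M₁₂ = I₁.map 𝔹.r₁ := rfl

/-- The ideal datum generated by an ideal of `B₁`: its scheme-theoretic closure in the second
chart is `r₂⁻¹(I₁ B₁₂)`. -/
def Sub.ofIdeal₁ (I₁ : Ideal 𝔹.B₁) : Sub (unit 𝔹) :=
  Sub.ofIdeals I₁ ((I₁.map 𝔹.r₁).comap 𝔹.r₂) (𝔹.map_comap_r₂ _).symm

/-- The ideal datum generated by an ideal of `B₂`. -/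
def Sub.ofIdeal₂ (I₂ : Ideal 𝔹.B₂) : Sub (unit 𝔹) :=
  Sub.ofIdeals ((I₂.map 𝔹.r₂).comap 𝔹.r₁) I₂ (𝔹.map_comap_r₁ _)

/-! ### Kernels, images, cokernels -/

namespace Hom

variable {N N' : GluedModule 𝔹} (φ : Hom N N')

/-- The kernel of a morphism, as a glued submodule. -/
def kerSub : Sub N where
  M₁ := LinearMap.ker φ.φ₁
  M₂ := LinearMap.ker φ.φ₂
  M₁₂ := LinearMap.ker φ.φ₁₂
  map₁ n hn := by
    rw [LinearMap.mem_ker] at hn ⊢
    rw [φ.comm₁, hn, map_zero]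
  map₂ n hn := by
    rw [LinearMap.mem_ker] at hn ⊢
    rw [φ.comm₂, hn, map_zero]
  gen₁ y hy := by
    rw [LinearMap.mem_ker] at hy
    obtain ⟨n, m, rfl⟩ := N.surj₁ y
    rw [map_smul, φ.comm₁] at hy
    obtain ⟨j, hj⟩ := N'.ker₁ _ (N'.eq_zero_of_r₂g_pow_smul hy)
    refine ⟨𝔹.f ^ j • n, by rw [LinearMap.mem_ker, map_smul, hj], m + j, ?_⟩
    rw [N.ι₁_pow_smul, pow_add, mul_smul, N.r₂g_pow_smul_r₁f_pow_smul]
  gen₂ y hy := by
    rw [LinearMap.mem_ker] at hy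
    obtain ⟨n, m, rfl⟩ := N.surj₂ y
    rw [map_smul, φ.comm₂] at hy
    obtain ⟨j, hj⟩ := N'.ker₂ _ (N'.eq_zero_of_r₁f_pow_smul hy)
    refine ⟨𝔹.g ^ j • n, by rw [LinearMap.mem_ker, map_smul, hj], m + j, ?_⟩
    rw [N.ι₂_pow_smul, pow_add, mul_smul, N.r₁f_pow_smul_r₂g_pow_smul]

/-- The image of a morphism, as a glued submodule. -/
def rangeSub : Sub N' where
  M₁ := LinearMap.range φ.φ₁
  M₂ := LinearMap.range φ.φ₂
  M₁₂ := LinearMap.range φ.φ₁₂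
  map₁ := by
    rintro _ ⟨n, rfl⟩
    exact ⟨N.ι₁ n, φ.comm₁ n⟩
  map₂ := by
    rintro _ ⟨n, rfl⟩
    exact ⟨N.ι₂ n, φ.comm₂ n⟩
  gen₁ := by
    rintro _ ⟨y, rfl⟩
    obtain ⟨n, m, rfl⟩ := N.surj₁ y
    exact ⟨φ.φ₁ n, ⟨n, rfl⟩, m, by rw [map_smul, φ.comm₁]⟩
  gen₂ := by
    rintro _ ⟨y, rfl⟩
    obtain ⟨n, m, rfl⟩ := N.surj₂ y
    exact ⟨φ.φ₂ n, ⟨n, rfl⟩, m, by rw [map_smul, φ.comm₂]⟩

/-- The kernel of a morphism. -/
@[reducible] def ker : GluedModule 𝔹 := φ.kerSub.toGlued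

/-- The image of a morphism. -/
@[reducible] def image : GluedModule 𝔹 := φ.rangeSub.toGlued

/-- The cokernel of a morphism. -/
@[reducible] def coker : GluedModule 𝔹 := φ.rangeSub.quot

/-- The inclusion of the kernel. -/
def kerι : Hom φ.ker N := φ.kerSub.incl

/-- The inclusion of the image. -/
def imageι : Hom φ.image N' := φ.rangeSub.incl

/-- The projection onto the cokernel. -/
def cokerπ : Hom N' φ.coker := φ.rangeSub.proj

/-- The corestriction of a morphism to its image. -/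
def toImage : Hom N φ.image where
  φ₁ := φ.φ₁.rangeRestrict
  φ₂ := φ.φ₂.rangeRestrict
  φ₁₂ := φ.φ₁₂.rangeRestrict
  comm₁ n := Subtype.ext (φ.comm₁ n)
  comm₂ n := Subtype.ext (φ.comm₂ n)

theorem imageι_comp_toImage : φ.imageι.comp φ.toImage = φ := by
  ext x <;> rfl

theorem cokerπ_φ₁_eq_zero_iff (n : N'.N₁) : φ.cokerπ.φ₁ n = 0 ↔ n ∈ LinearMap.range φ.φ₁ :=
  Submodule.Quotient.mk_eq_zero _

theorem cokerπ_φ₂_eq_zero_iff (n : N'.N₂) : φ.cokerπ.φ₂ n = 0 ↔ n ∈ LinearMap.range φ.φ₂ :=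
  Submodule.Quotient.mk_eq_zero _

theorem cokerπ_φ₁₂_eq_zero_iff (n : N'.N₁₂) : φ.cokerπ.φ₁₂ n = 0 ↔ n ∈ LinearMap.range φ.φ₁₂ :=
  Submodule.Quotient.mk_eq_zero _

/-- `0 → ker φ → N → image φ → 0` is short exact. -/
theorem shortExact_ker_image : ShortExact φ.kerι φ.toImage where
  inj₁ := Subtype.val_injective
  exact₁ n := by
    constructor
    · intro h
      exact ⟨⟨n, congrArg Subtype.val h⟩, rfl⟩
    · rintro ⟨⟨n', hn'⟩, rfl⟩
      exact Subtype.ext hn'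
  surj₁ := φ.φ₁.surjective_rangeRestrict
  inj₂ := Subtype.val_injective
  exact₂ n := by
    constructor
    · intro h
      exact ⟨⟨n, congrArg Subtype.val h⟩, rfl⟩
    · rintro ⟨⟨n', hn'⟩, rfl⟩
      exact Subtype.ext hn'
  surj₂ := φ.φ₂.surjective_rangeRestrict

/-- `0 → image φ → N' → coker φ → 0` is short exact. -/
theorem shortExact_image_coker : ShortExact φ.imageι φ.cokerπ := φ.rangeSub.shortExact

/-- For a chartwise injective morphism, `0 → N → N' → coker φ → 0` is short exact. -/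
theorem shortExact_coker (h₁ : Function.Injective φ.φ₁) (h₂ : Function.Injective φ.φ₂) :
    ShortExact φ φ.cokerπ where
  inj₁ := h₁
  exact₁ n := by
    rw [φ.cokerπ_φ₁_eq_zero_iff]
    rfl
  surj₁ := Submodule.mkQ_surjective _
  inj₂ := h₂
  exact₂ n := by
    rw [φ.cokerπ_φ₂_eq_zero_iff]
    rfl
  surj₂ := Submodule.mkQ_surjective _

/-- For a chartwise surjective morphism, `0 → ker φ → N → N' → 0` is short exact. -/
theorem shortExact_ker (h₁ : Function.Surjective φ.φ₁) (h₂ : Function.Surjective φ.φ₂) :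
    ShortExact φ.kerι φ where
  inj₁ := Subtype.val_injective
  exact₁ n := by
    constructor
    · intro h
      exact ⟨⟨n, h⟩, rfl⟩
    · rintro ⟨⟨n', hn'⟩, rfl⟩
      exact hn'
  surj₁ := h₁
  inj₂ := Subtype.val_injective
  exact₂ n := by
    constructor
    · intro h
      exact ⟨⟨n, h⟩, rfl⟩
    · rintro ⟨⟨n', hn'⟩, rfl⟩
      exact hn'
  surj₂ := h₂

end Hom

end GluedModule

end Fermat.Agent.S25

/-! ### Euler characteristic of a glued submodule with finite-dimensional quotient (appended) -/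

namespace Fermat.Agent.S25

namespace GluedModule

section chiSub

variable {κ : Type u} [Field κ] {𝔹 : TwoChart κ} {N : GluedModule 𝔹} (S : Sub N)

/-- If the quotient by a glued submodule `S` has finite-dimensional charts and `S` has
finite-dimensional cohomology, then
`χ(N) = χ(S) + dim N₁/M₁ + dim N₂/M₂ - dim N₁₂/M₁₂`. -/
theorem Sub.chi_eq [Module.Finite κ S.toGlued.H0] [Module.Finite κ S.toGlued.H1]
    [Module.Finite κ (N.N₁ ⧸ S.M₁)] [Module.Finite κ (N.N₂ ⧸ S.M₂)]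
    [Module.Finite κ (N.N₁₂ ⧸ S.M₁₂)] :
    chi N = chi S.toGlued + ((Module.finrank κ (N.N₁ ⧸ S.M₁) : ℤ) +
      Module.finrank κ (N.N₂ ⧸ S.M₂) - Module.finrank κ (N.N₁₂ ⧸ S.M₁₂)) := by
  have h0 : Module.Finite κ S.quot.H0 := finite_H0_of_finite S.quot
  have h1 : Module.Finite κ S.quot.H1 := finite_H1_of_finite S.quot
  rw [S.shortExact.chi_add', chi_of_finite S.quot]

/-- A glued submodule with finite-dimensional quotient has finite-dimensional cohomology iff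
the ambient module has (forward direction). -/
theorem Sub.finite_H0_of_quot [Module.Finite κ S.toGlued.H0]
    [Module.Finite κ (N.N₁ ⧸ S.M₁)] [Module.Finite κ (N.N₂ ⧸ S.M₂)] : Module.Finite κ N.H0 := by
  have h0 : Module.Finite κ S.quot.H0 := finite_H0_of_finite S.quot
  exact S.shortExact.finite_H0_mid

/-- Same for `H¹`. -/
theorem Sub.finite_H1_of_quot [Module.Finite κ S.toGlued.H1]
    [Module.Finite κ (N.N₁₂ ⧸ S.M₁₂)] : Module.Finite κ N.H1 := by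
  have h1 : Module.Finite κ S.quot.H1 := finite_H1_of_finite S.quot
  exact S.shortExact.finite_H1_mid

/-- Conversely, the sub has finite-dimensional `H⁰` when the ambient module has. -/
theorem Sub.finite_H0_toGlued [Module.Finite κ N.H0] : Module.Finite κ S.toGlued.H0 :=
  S.shortExact.finite_H0_left

/-- ... and finite-dimensional `H¹` when the ambient `H¹` and the quotient charts `1`, `2` are
finite-dimensional. -/
theorem Sub.finite_H1_toGlued [Module.Finite κ N.H1]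
    [Module.Finite κ (N.N₁ ⧸ S.M₁)] [Module.Finite κ (N.N₂ ⧸ S.M₂)] :
    Module.Finite κ S.toGlued.H1 := by
  have h0 : Module.Finite κ S.quot.H0 := finite_H0_of_finite S.quot
  exact S.shortExact.finite_H1_left

end chiSub

end GluedModule

end Fermat.Agent.S25
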